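import Mathlib
import Fermat.Prelude.Def_ModularCurve_ReductionModL
import Fermat.Prelude.Def_EllipticCurve_FrobeniusTrace
import Fermat.Agent.S24.helper75_FFCore2
import Fermat.Agent.S24.helper77_Degree

/-!
# S18 endgame (helper19): wiring of S18 from the Kummer-form injectivity statement (INJ)

`InjStatement N A m` is the interface statement delivered by P2-CORE.
`ConstBarStatement N A` : a function of the special fibre field without zeros and poles is constant.
`s18_of_inj` : the frozen statement S18 follows.
-/

set_option autoImplicit false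

noncomputable section

open HahnSeries IntermediateField AlgebraicCurve ModularCurve

namespace Fermat.Agent.S18.helper19

/-- the base field -/
abbrev Kb : Type := AlgebraicClosure ℚ

/-- residue field of `A` -/
abbrev kA (A : ValuationSubring Kb) : Type := IsLocalRing.ResidueField A

/-- the function field in characteristic `0` -/
abbrev FF (N : ℕ) : IntermediateField Kb (LaurentSeries Kb) := modularFunctionFieldBar N

/-- the function field of the special fibre -/
abbrev FFb (A : ValuationSubring Kb) (N : ℕ) : IntermediateField (kA A) (LaurentSeries (kA A)) :=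
  modularFunctionFieldFullC (kA A) N

/-- `Y` is an integral `q`-series representing an element of `F` whose reduction is a nonzero
element of the special fibre field. -/
def IsGood (A : ValuationSubring Kb) (N : ℕ) (Y : LaurentSeries A) : Prop :=
  coeffMap A.subtype Y ∈ FF N ∧ coeffMap (IsLocalRing.residue A) Y ∈ FFb A N ∧
    coeffMap (IsLocalRing.residue A) Y ≠ 0

/-- **(INJ)**, Kummer form: a function `f` whose divisor is divisible by `m` and which is the
quotient of two good integral series with the same reduction is a constant times an `m`-th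
power. -/
def InjStatement (N : ℕ) [NeZero N] (A : ValuationSubring Kb) (m : ℕ) : Prop :=
  ∀ f : FF N, f ≠ 0 →
    (∀ P : Place Kb (FF N), (m : ℤ) ∣ P.ord f) →
    (∃ Y₁ Y₂ : LaurentSeries A, IsGood A N Y₁ ∧ IsGood A N Y₂ ∧
        coeffMap A.subtype Y₁ = (f : LaurentSeries Kb) * coeffMap A.subtype Y₂ ∧
        coeffMap (IsLocalRing.residue A) Y₁ = coeffMap (IsLocalRing.residue A) Y₂) →
    ∃ (c : Kb) (u : FF N), f = algebraMap Kb (FF N) c * u ^ m

/-- a function of the special fibre without zeros and poles is constant -/
def ConstBarStatement (N : ℕ) [NeZero N] (A : ValuationSubring Kb) : Prop :=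
  ∀ y : FFb A N, y ≠ 0 → (∀ Q : Place (kA A) (FFb A N), Q.ord y = 0) →
    ∃ c : kA A, y = algebraMap (kA A) (FFb A N) c


section Good

variable {A : ValuationSubring Kb} {N : ℕ}

theorem isGood_one : IsGood A N (1 : LaurentSeries A) := by
  refine ⟨?_, ?_, ?_⟩
  · rw [map_one]; exact one_mem _
  · rw [map_one]; exact one_mem _
  · rw [map_one]; exact one_ne_zero

theorem IsGood.mul {Y Y' : LaurentSeries A} (h : IsGood A N Y) (h' : IsGood A N Y') :
    IsGood A N (Y * Y') := by
  refine ⟨?_, ?_, ?_⟩
  · rw [map_mul]; exact mul_mem h.1 h'.1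
  · rw [map_mul]; exact mul_mem h.2.1 h'.2.1
  · rw [map_mul]; exact mul_ne_zero h.2.2 h'.2.2

/-- the constant series attached to `a : A` -/
def constA (a : A) : LaurentSeries A := HahnSeries.single 0 a

theorem coeffMap_subtype_constA (a : A) :
    coeffMap A.subtype (constA a) = algebraMap Kb (LaurentSeries Kb) (a : Kb) := by
  rw [constA, coeffMap_single, algebraMap_laurentSeries_eq_single]
  rfl

theorem coeffMap_residue_constA (a : A) :
    coeffMap (IsLocalRing.residue A) (constA a) =
      algebraMap (kA A) (LaurentSeries (kA A)) (IsLocalRing.residue A a) := by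
  rw [constA, coeffMap_single, algebraMap_laurentSeries_eq_single]

theorem isGood_constA {a : A} (ha : IsLocalRing.residue A a ≠ 0) : IsGood A N (constA a) := by
  refine ⟨?_, ?_, ?_⟩
  · rw [coeffMap_subtype_constA]; exact (FF N).algebraMap_mem _
  · rw [coeffMap_residue_constA]; exact (FFb A N).algebraMap_mem _
  · rw [coeffMap_residue_constA]
    exact fun h0 => ha ((algebraMap (kA A) (LaurentSeries (kA A))).injective
      (h0.trans (map_zero _).symm))

theorem jqNModC_mem_FF {d : ℕ} [NeZero d] (hd : d ∣ N) : jqNModC Kb d ∈ FF N := by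
  have h := coeffEmb_mem_laurentBaseChange Kb (jqd_mem_full N hd)
  have e : coeffEmb Kb (qExpand ℚ d jq) = jqNModC Kb d := by
    rw [coeffEmb, ← jqModC_rat, ← coeffMap_jqNModC (algebraMap ℚ Kb) d]
    rfl
  rw [e] at h
  exact h

theorem isGood_jqNModC {d : ℕ} [NeZero d] (hd : d ∣ N) : IsGood A N (jqNModC A d) := by
  refine ⟨?_, ?_, ?_⟩
  · rw [coeffMap_jqNModC]; exact jqNModC_mem_FF hd
  · rw [coeffMap_jqNModC]; exact jqModCd_mem_full (kA A) N hd
  · rw [coeffMap_jqNModC]
    intro h0
    have h1 : qExpand (kA A) d (jqModC (kA A)) = qExpand (kA A) d 0 := by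
      rw [map_zero]; exact h0
    exact jqModC_ne_zero_of_nontrivial (kA A) (qExpand_injective d h1)

/-- every nonzero element of the special fibre field is a quotient of reductions of good
series -/
theorem exists_good_lift {x : LaurentSeries (kA A)} (hx : x ∈ FFb A N) :
    x = 0 ∨ ∃ P Q : LaurentSeries A, IsGood A N P ∧ IsGood A N Q ∧
      x * coeffMap (IsLocalRing.residue A) Q = coeffMap (IsLocalRing.residue A) P := by
  induction hx using IntermediateField.adjoin_induction with
  | mem x hx =>
    obtain ⟨d, hd0, hd, rfl⟩ := hx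
    haveI := hd0
    exact Or.inr ⟨jqNModC A d, 1, isGood_jqNModC hd, isGood_one, by
      rw [map_one, mul_one, coeffMap_jqNModC]; rfl⟩
  | algebraMap c =>
    by_cases hc : c = 0
    · left; rw [hc, map_zero]
    · obtain ⟨a, rfl⟩ := IsLocalRing.residue_surjective c
      exact Or.inr ⟨constA a, 1, isGood_constA hc, isGood_one, by
        rw [map_one, mul_one, coeffMap_residue_constA]⟩
  | add x y _ _ hx hy =>
    rcases hx with rfl | ⟨P, Q, hP, hQ, e⟩
    · rw [zero_add]; exact hy
    rcases hy with rfl | ⟨P', Q', hP', hQ', e'⟩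
    · rw [add_zero]; exact Or.inr ⟨P, Q, hP, hQ, e⟩
    by_cases h0 : x + y = 0
    · exact Or.inl h0
    · right
      have key : (x + y) * coeffMap (IsLocalRing.residue A) (Q * Q') =
          coeffMap (IsLocalRing.residue A) (P * Q' + P' * Q) := by
        rw [map_mul, map_add, map_mul, map_mul, ← e, ← e']; ring
      have hQQ := hQ.mul hQ'
      refine ⟨P * Q' + P' * Q, Q * Q', ⟨?_, ?_, ?_⟩, hQQ, key⟩
      · rw [map_add]; exact add_mem (hP.mul hQ').1 (hP'.mul hQ).1
      · rw [map_add]; exact add_mem (hP.mul hQ').2.1 (hP'.mul hQ).2.1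
      · rw [← key]; exact mul_ne_zero h0 hQQ.2.2
  | inv x _ hx =>
    rcases hx with rfl | ⟨P, Q, hP, hQ, e⟩
    · left; rw [inv_zero]
    · right
      refine ⟨Q, P, hQ, hP, ?_⟩
      have hx0 : x ≠ 0 := by
        rintro rfl
        rw [zero_mul] at e
        exact hP.2.2 e.symm
      rw [← e]; field_simp
  | mul x y _ _ hx hy =>
    rcases hx with rfl | ⟨P, Q, hP, hQ, e⟩
    · left; rw [zero_mul]
    rcases hy with rfl | ⟨P', Q', hP', hQ', e'⟩
    · left; rw [mul_zero]
    · right
      refine ⟨P * P', Q * Q', hP.mul hP', hQ.mul hQ', ?_⟩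
      rw [map_mul, map_mul, ← e, ← e']; ring

end Good


section CharZeroFacts

open Fermat.Agent.S24

variable (N : ℕ) [NeZero N]

theorem hasPD : HasPrincipalDivisors Kb (FF N) :=
  haveI := helper77.an_finiteDimensional N
  helper75.ff_hasPrincipalDivisors (xJ N) (helper77.an_transcendental N)

/-- a function without zeros is constant (characteristic `0`) -/
theorem const_of_ord_eq_zero (g : FF N) (hg : ∀ P : Place Kb (FF N), P.ord g = 0) :
    g ∈ Set.range (algebraMap Kb (FF N)) := by
  classical
  by_contra hgr
  haveI := helper77.an_finiteDimensional N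
  obtain ⟨hgt, hfd⟩ := helper82.ff_transcendental (xJ N) (helper77.an_transcendental N) g hgr
  haveI := hfd
  have hsum := helper75.ff_sum_ord_zeros g hgt
  have hempty : (helper75.ff_finite_zeros g hgt).toFinset = ∅ := by
    ext w
    simp only [Set.Finite.mem_toFinset, Set.mem_setOf_eq, Finset.notMem_empty, iff_false]
    rw [hg w]
    exact lt_irrefl 0
  rw [hempty, Finset.sum_empty] at hsum
  have h0 : Module.finrank Kb⟮g⟯ (FF N) = 0 := by exact_mod_cast hsum.symm
  exact absurd h0 (Module.finrank_pos).ne'

end CharZeroFacts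

end Fermat.Agent.S18.helper19
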