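import Fermat.Agent.S18.helper19_Wiring

/-!
# S18 endgame (helper19): `s18_of_inj`

The frozen statement S18 from `InjStatement` (P2-CORE) and `ConstBarStatement`.
-/

set_option autoImplicit false

noncomputable section

open HahnSeries IntermediateField AlgebraicCurve ModularCurve

namespace Fermat.Agent.S18.helper19

variable {A : ValuationSubring Kb} {N : ℕ}

/-- the element of `F` represented by a good series -/
def toF {Y : LaurentSeries A} (h : IsGood A N Y) : FF N := ⟨coeffMap A.subtype Y, h.1⟩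

/-- the element of the special fibre field represented by a good series -/
def toFb {Y : LaurentSeries A} (h : IsGood A N Y) : FFb A N :=
  ⟨coeffMap (IsLocalRing.residue A) Y, h.2.1⟩

theorem toFb_ne_zero {Y : LaurentSeries A} (h : IsGood A N Y) : toFb h ≠ 0 := fun h0 =>
  h.2.2 (congrArg Subtype.val h0)

theorem toF_ne_zero {Y : LaurentSeries A} (h : IsGood A N Y) : toF h ≠ 0 := by
  intro h0
  have h1 : coeffMap A.subtype Y = 0 := congrArg Subtype.val h0
  have h2 : Y = 0 := by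
    apply HahnSeries.ext
    funext k
    have := congrArg (fun x => x.coeff k) h1
    simp only [coeffMap_coeff, HahnSeries.coeff_zero] at this
    rw [HahnSeries.coeff_zero]
    exact A.subtype_injective (this.trans (map_zero A.subtype).symm)
  exact h.2.2 (by rw [h2, map_zero])

theorem toF_mul {Y Y' : LaurentSeries A} (h : IsGood A N Y) (h' : IsGood A N Y') :
    toF (h.mul h') = toF h * toF h' := Subtype.ext (map_mul _ _ _)

theorem toFb_mul {Y Y' : LaurentSeries A} (h : IsGood A N Y) (h' : IsGood A N Y') :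
    toFb (h.mul h') = toFb h * toFb h' := Subtype.ext (map_mul _ _ _)

theorem toF_one : toF (isGood_one (A := A) (N := N)) = 1 := Subtype.ext (map_one _)

theorem toFb_one : toFb (isGood_one (A := A) (N := N)) = 1 := Subtype.ext (map_one _)

/-- clause (ii) of the reduction hypothesis, for good series -/
theorem mapDomain_apply_of_isGood
    {r : Place Kb (FF N) → Place (kA A) (FFb A N)}
    (hr : IsPlaceReductionModL A N r) {Y : LaurentSeries A} (h : IsGood A N Y)
    (D : Divisor Kb (FF N)) (hD : ∀ P, D P = P.ord (toF h)) (Q : Place (kA A) (FFb A N)) :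
    Finsupp.mapDomain r D Q = Q.ord (toFb h) :=
  hr.2 Y h.1 h.2.1 h.2.2 D hD Q


/-- clause (iii) of the reduction hypothesis: the divisor of every nonzero function is the
divisor of a quotient of two good series -/
theorem exists_good_quotient [NeZero N]
    (hgen : PrincipalGeneratedByIntegral A (IsLocalRing.residue A) N)
    (f : FF N) (hf : f ≠ 0) :
    ∃ (Y₁ Y₂ : LaurentSeries A) (h₁ : IsGood A N Y₁) (h₂ : IsGood A N Y₂),
      ∀ P : Place Kb (FF N), P.ord f = P.ord (toF h₁) - P.ord (toF h₂) := by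
  haveI := hasPD N
  obtain ⟨Df, hDf, -⟩ := HasPrincipalDivisors.exists_divisor (K := Kb) f hf
  have hmem : Df ∈ Divisor.principal (K := Kb) (F := FF N) := ⟨f, hf, hDf⟩
  have hcl := hgen hmem
  have key : ∃ (Y₁ Y₂ : LaurentSeries A) (h₁ : IsGood A N Y₁) (h₂ : IsGood A N Y₂),
      ∀ P : Place Kb (FF N), Df P = P.ord (toF h₁) - P.ord (toF h₂) := by
    clear hmem hDf
    induction hcl using AddSubgroup.closure_induction with
    | mem E hE =>
      obtain ⟨y, hy, hyk, hne, hE⟩ := hE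
      refine ⟨y, 1, ⟨hy, hyk, hne⟩, isGood_one, fun P => ?_⟩
      rw [hE P, toF_one, Place.ord_one, sub_zero]
      rfl
    | zero =>
      exact ⟨1, 1, isGood_one, isGood_one, fun P => by rw [sub_self]; rfl⟩
    | add E E' _ _ hE hE' =>
      obtain ⟨Y₁, Y₂, h₁, h₂, e⟩ := hE
      obtain ⟨Y₁', Y₂', h₁', h₂', e'⟩ := hE'
      refine ⟨Y₁ * Y₁', Y₂ * Y₂', h₁.mul h₁', h₂.mul h₂', fun P => ?_⟩
      rw [Finsupp.add_apply, e P, e' P, toF_mul h₁ h₁', toF_mul h₂ h₂',
        P.ord_mul (toF_ne_zero h₁) (toF_ne_zero h₁'),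
        P.ord_mul (toF_ne_zero h₂) (toF_ne_zero h₂')]
      ring
    | neg E _ hE =>
      obtain ⟨Y₁, Y₂, h₁, h₂, e⟩ := hE
      refine ⟨Y₂, Y₁, h₂, h₁, fun P => ?_⟩
      rw [Finsupp.neg_apply, e P]
      ring
  obtain ⟨Y₁, Y₂, h₁, h₂, e⟩ := key
  exact ⟨Y₁, Y₂, h₁, h₂, fun P => by rw [← hDf P, e P]⟩


/-- the divisor of a nonzero function -/
def divOf [NeZero N] (f : FF N) (hf : f ≠ 0) : Divisor Kb (FF N) :=
  (@HasPrincipalDivisors.exists_divisor Kb (FF N) _ _ _ (hasPD N) f hf).choose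

theorem divOf_apply [NeZero N] (f : FF N) (hf : f ≠ 0) (P : Place Kb (FF N)) :
    divOf f hf P = P.ord f :=
  (@HasPrincipalDivisors.exists_divisor Kb (FF N) _ _ _ (hasPD N) f hf).choose_spec.1 P

theorem mapDomain_divOf_good [NeZero N]
    {r : Place Kb (FF N) → Place (kA A) (FFb A N)}
    (hr : IsPlaceReductionModL A N r) {Y : LaurentSeries A} (h : IsGood A N Y)
    (Q : Place (kA A) (FFb A N)) :
    Finsupp.mapDomain r (divOf (toF h) (toF_ne_zero h)) Q = Q.ord (toFb h) :=
  mapDomain_apply_of_isGood hr h _ (divOf_apply _ _) Q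

/-- **S18 from (INJ)**: a point of `J₀(N)` killed by `m` with trivial reduction is zero,
provided the Kummer-form injectivity statement holds for `m` and the functions of the special
fibre without zeros and poles are constant. -/
theorem s18_of_inj [NeZero N] (A : ValuationSubring Kb)
    (hconst : ConstBarStatement N A) (m : ℕ) (hm0 : m ≠ 0) (hinj : InjStatement N A m)
    (h : ReductionInputsModL A N) (z : JZero N)
    (hmz : m • z = 0) (hz : reductionModL A N z = 0) : z = 0 := by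
  obtain ⟨D, rfl⟩ := Pic0.mk_surjective z
  have hr : IsPlaceReductionModL A N (placeReductionModL h) :=
    isPlaceReductionModL_placeReductionModL h
  have hgen : PrincipalGeneratedByIntegral A (IsLocalRing.residue A) N := h.choose_spec.2
  -- the reduction of `D` is principal
  rw [reductionModL_mk h D] at hz
  have hz' := (QuotientAddGroup.eq_zero_iff _).mp hz
  rw [AddSubgroup.mem_addSubgroupOf] at hz'
  obtain ⟨gb, hgb0, hgb⟩ := hz'
  have hgb' : ∀ Q, Finsupp.mapDomain (placeReductionModL h) (D : Divisor Kb (FF N)) Q =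
      Q.ord gb := hgb
  clear hgb hz
  obtain ⟨r, hrdef⟩ : ∃ r, r = placeReductionModL h := ⟨_, rfl⟩
  rw [← hrdef] at hr hgb'
  -- lift `gb`
  rcases exists_good_lift (A := A) (N := N) gb.2 with h0 | ⟨P₀, Q₀, hP₀, hQ₀, e₀⟩
  · exact absurd (Subtype.ext h0) hgb0
  have e₀' : gb * toFb hQ₀ = toFb hP₀ := Subtype.ext e₀
  have hp0 := toF_ne_zero hP₀
  have hq0 := toF_ne_zero hQ₀
  -- `D' = D - div(p₀) + div(q₀)` has trivial reduction
  obtain ⟨D', hD'⟩ : ∃ D' : Divisor Kb (FF N),
    D' = (D : Divisor Kb (FF N)) - (divOf (toF hP₀) hp0 - divOf (toF hQ₀) hq0) := ⟨_, rfl⟩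
  have hD'r : ∀ Q, Finsupp.mapDomain r D' Q = 0 := by
    intro Q
    have e1 : Finsupp.mapDomain r D' = Finsupp.mapDomain r (D : Divisor Kb (FF N)) -
        (Finsupp.mapDomain r (divOf (toF hP₀) hp0) -
          Finsupp.mapDomain r (divOf (toF hQ₀) hq0)) := by
      rw [hD']
      exact (map_sub (reductionDivAlong r) _ _).trans
        (congrArg _ (map_sub (reductionDivAlong r) _ _))
    rw [e1, Finsupp.sub_apply, Finsupp.sub_apply, hgb' Q, mapDomain_divOf_good hr hP₀ Q,
      mapDomain_divOf_good hr hQ₀ Q, ← e₀', Q.ord_mul hgb0 (toFb_ne_zero hQ₀)]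
    ring
  -- `m • D` is principal
  have hmz' : Pic0.mk (m • D) = 0 := hmz
  have hmz'' := (QuotientAddGroup.eq_zero_iff _).mp hmz'
  rw [AddSubgroup.mem_addSubgroupOf] at hmz''
  obtain ⟨f, hf0, hf⟩ := hmz''
  have hf' : ∀ P : Place Kb (FF N), (m : ℤ) * (D : Divisor Kb (FF N)) P = P.ord f := by
    intro P
    rw [← hf P, AddSubgroup.coe_nsmul, Finsupp.smul_apply, nsmul_eq_mul]
  -- `f' = f * (q₀ / p₀) ^ m` has divisor `m • D'`
  obtain ⟨f', hf'def⟩ : ∃ f' : FF N, f' = f * (toF hQ₀ / toF hP₀) ^ m := ⟨_, rfl⟩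
  have hqp0 : (toF hQ₀ / toF hP₀) ^ m ≠ 0 := pow_ne_zero _ (div_ne_zero hq0 hp0)
  have hf'0 : f' ≠ 0 := hf'def ▸ mul_ne_zero hf0 hqp0
  have hf'ord : ∀ P : Place Kb (FF N), P.ord f' = (m : ℤ) * D' P := by
    intro P
    rw [hf'def, P.ord_mul hf0 hqp0, ← zpow_natCast, P.ord_zpow,
      div_eq_mul_inv, P.ord_mul hq0 (inv_ne_zero hp0), P.ord_inv, ← hf' P, hD',
      Finsupp.sub_apply, Finsupp.sub_apply, divOf_apply, divOf_apply]
    ring
  obtain ⟨Y₁, Y₂, h₁, h₂, e12⟩ := exists_good_quotient hgen f' hf'0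
  -- the reductions of `Y₁` and `Y₂` have the same divisor
  have hbar : ∀ Q : Place (kA A) (FFb A N), Q.ord (toFb h₁) = Q.ord (toFb h₂) := by
    intro Q
    have e1 : (m : ℤ) • D' =
        divOf (toF h₁) (toF_ne_zero h₁) - divOf (toF h₂) (toF_ne_zero h₂) := by
      ext P
      rw [Finsupp.smul_apply, Finsupp.sub_apply, divOf_apply, divOf_apply, ← e12 P, hf'ord P,
        smul_eq_mul]
    have e2 : reductionDivAlong r ((m : ℤ) • D') Q =
        reductionDivAlong r
          (divOf (toF h₁) (toF_ne_zero h₁) - divOf (toF h₂) (toF_ne_zero h₂)) Q := by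
      rw [e1]
    rw [map_zsmul, map_sub, Finsupp.smul_apply, Finsupp.sub_apply, reductionDivAlong_apply,
      reductionDivAlong_apply, reductionDivAlong_apply, hD'r Q, mapDomain_divOf_good hr h₁ Q,
      mapDomain_divOf_good hr h₂ Q, smul_zero] at e2
    linarith
  -- hence their quotient is a constant
  have hy0 : toFb h₁ / toFb h₂ ≠ 0 := div_ne_zero (toFb_ne_zero h₁) (toFb_ne_zero h₂)
  obtain ⟨cb, hcb⟩ := hconst (toFb h₁ / toFb h₂) hy0 (fun Q => by
    rw [div_eq_mul_inv, Q.ord_mul (toFb_ne_zero h₁) (inv_ne_zero (toFb_ne_zero h₂)), Q.ord_inv,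
      hbar Q]
    ring)
  have hcb0 : cb ≠ 0 := by
    rintro rfl
    rw [map_zero] at hcb
    exact hy0 hcb
  obtain ⟨a, rfl⟩ := IsLocalRing.residue_surjective cb
  have ha : IsGood A N (constA a) := isGood_constA hcb0
  have h₂' : IsGood A N (constA a * Y₂) := ha.mul h₂
  have ered : coeffMap (IsLocalRing.residue A) Y₁ =
      coeffMap (IsLocalRing.residue A) (constA a * Y₂) := by
    have e : toFb ha = algebraMap (kA A) (FFb A N) (IsLocalRing.residue A a) :=
      Subtype.ext (coeffMap_residue_constA a)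
    have e' : toFb h₁ = toFb ha * toFb h₂ := by
      rw [e, ← hcb, div_mul_cancel₀ _ (toFb_ne_zero h₂)]
    rw [← toFb_mul] at e'
    exact congrArg Subtype.val e'
  -- apply (INJ)
  obtain ⟨f'', hf''def⟩ : ∃ f'' : FF N, f'' = toF h₁ / toF h₂' := ⟨_, rfl⟩
  have hf''0 : f'' ≠ 0 := hf''def ▸ div_ne_zero (toF_ne_zero h₁) (toF_ne_zero h₂')
  have hf''ord : ∀ P : Place Kb (FF N), P.ord f'' = (m : ℤ) * D' P := by
    intro P
    have ea : toF (N := N) ha = algebraMap Kb (FF N) (a : Kb) :=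
      Subtype.ext (coeffMap_subtype_constA a)
    rw [hf''def, div_eq_mul_inv, P.ord_mul (toF_ne_zero h₁) (inv_ne_zero (toF_ne_zero h₂')),
      P.ord_inv, toF_mul ha h₂, P.ord_mul (toF_ne_zero ha) (toF_ne_zero h₂), ea,
      Fermat.Agent.S24.helper75.place_ord_algebraMap, ← hf'ord P, e12 P]
    ring
  have emul : coeffMap A.subtype Y₁ =
      (f'' : LaurentSeries Kb) * coeffMap A.subtype (constA a * Y₂) := by
    rw [hf''def]
    exact (congrArg Subtype.val (div_mul_cancel₀ (toF h₁) (toF_ne_zero h₂'))).symm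
  obtain ⟨c, u, hcu⟩ := hinj f'' hf''0 (fun P => ⟨D' P, hf''ord P⟩)
    ⟨Y₁, constA a * Y₂, h₁, h₂', emul, ered⟩
  have hc0 : algebraMap Kb (FF N) c ≠ 0 := by
    intro h0
    rw [h0, zero_mul] at hcu
    exact hf''0 hcu
  have hu0 : u ≠ 0 := by
    rintro rfl
    rw [zero_pow hm0, mul_zero] at hcu
    exact hf''0 hcu
  have hordu : ∀ P : Place Kb (FF N), D' P = P.ord u := by
    intro P
    have e3 := hf''ord P
    rw [hcu, P.ord_mul hc0 (pow_ne_zero _ hu0), Fermat.Agent.S24.helper75.place_ord_algebraMap,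
      zero_add, ← zpow_natCast, P.ord_zpow] at e3
    exact (mul_left_cancel₀ (Nat.cast_ne_zero.mpr hm0) e3).symm
  -- conclude: `D = div (u * p₀ / q₀)`
  rw [Pic0.mk, QuotientAddGroup.eq_zero_iff, AddSubgroup.mem_addSubgroupOf]
  refine ⟨u * (toF hP₀ / toF hQ₀), mul_ne_zero hu0 (div_ne_zero hp0 hq0), fun P => ?_⟩
  have e4 := hordu P
  rw [hD', Finsupp.sub_apply, Finsupp.sub_apply, divOf_apply, divOf_apply] at e4
  rw [P.ord_mul hu0 (div_ne_zero hp0 hq0), div_eq_mul_inv, P.ord_mul hp0 (inv_ne_zero hq0),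
    P.ord_inv]
  linarith

/-- the shape used by the final statement -/
theorem s18_of_inj' [NeZero N] {ℓ : ℕ} (A : ValuationSubring Kb)
    (hconst : ConstBarStatement N A) (hinj : ∀ m : ℕ, ¬ ℓ ∣ m → InjStatement N A m)
    (h : ReductionInputsModL A N) (m : ℕ) (hm : ¬ ℓ ∣ m) (z : JZero N)
    (hmz : m • z = 0) (hz : reductionModL A N z = 0) : z = 0 :=
  s18_of_inj A hconst m (fun h0 => hm (h0 ▸ dvd_zero ℓ)) (hinj m hm) h z hmz hz

end Fermat.Agent.S18.helper19
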