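import Fermat.Agent.S18.helper19_Transfer
import Fermat.Agent.P2.helper81_ValScale
import Fermat.Agent.P2.helper95_FFlInst

/-!
# S18 endgame (helper19): S18 from the output of P2-CORE

`CoreInjStatement` : `InjStatement M A m` at the good levels (`4 ∣ M` or `9 ∣ M`).
`s18_of_coreInj` : the frozen statement S18 from `CoreInjStatement`.
-/

set_option autoImplicit false

noncomputable section

open HahnSeries IntermediateField AlgebraicCurve ModularCurve

namespace Fermat.Agent.S18.helper19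

open Fermat.Agent.S24

/-- the output of P2-CORE consumed by S18: the injectivity statement at the good levels -/
def CoreInjStatement : Prop :=
  ∀ (M : ℕ) [NeZero M] (A : ValuationSubring Kb) (ℓ : ℕ) [Fact ℓ.Prime],
    (4 ∣ M ∨ 9 ∣ M) → ¬ ℓ ∣ M → A.LiesOverPrime ℓ → ∀ m : ℕ, ¬ ℓ ∣ m → InjStatement M A m

theorem xBar_eq_xJb (A : ValuationSubring Kb) (M : ℕ) [NeZero M] :
    Fermat.Agent.P2.helper81.xBar A M = xJb A M := rfl

/-- the degree inequality needed by the transfer -/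
theorem finrank_le_bar (M : ℕ) [NeZero M] (A : ValuationSubring Kb) {ℓ : ℕ} [Fact ℓ.Prime]
    (hA : A.LiesOverPrime ℓ) (hℓM : ¬ ℓ ∣ M) :
    Module.finrank Kb⟮xJ M⟯ (FF M) ≤ Module.finrank (kA A)⟮xJb A M⟯ (FFb A M) := by
  rw [← xBar_eq_xJb]
  exact (Fermat.Agent.P2.helper81.finrank_xBar_eq_finrank_xJ (N := M) A hA hℓM).ge

/-- the injectivity statement at every level prime to `ℓ`, from the good levels -/
theorem inj_of_coreInj (hcore : CoreInjStatement) (N : ℕ) [NeZero N] {ℓ : ℕ} [Fact ℓ.Prime]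
    (hℓN : ¬ ℓ ∣ N) (A : ValuationSubring Kb) (hA : A.LiesOverPrime ℓ)
    (hgen : PrincipalGeneratedByIntegral A (IsLocalRing.residue A) N)
    (m : ℕ) (hm : ¬ ℓ ∣ m) : InjStatement N A m := by
  have hℓ : ℓ.Prime := Fact.out
  by_cases h2 : ℓ = 2
  · -- level `9 * N`
    haveI : NeZero (9 * N) := ⟨Nat.mul_ne_zero (by norm_num) (NeZero.ne N)⟩
    have hℓM : ¬ ℓ ∣ 9 * N := by
      intro hd
      rcases (Nat.Prime.dvd_mul hℓ).mp hd with h9 | hN
      · rw [h2] at h9
        omega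
      · exact hℓN hN
    exact inj_transfer (N := N) (M := 9 * N) (Dvd.intro_left 9 rfl) hA m hm hgen
      (finrank_le_bar (9 * N) A hA hℓM)
      (hcore (9 * N) A ℓ (Or.inr (Dvd.intro N rfl)) hℓM hA m hm)
  · -- level `4 * N`
    haveI : NeZero (4 * N) := ⟨Nat.mul_ne_zero (by norm_num) (NeZero.ne N)⟩
    have hℓM : ¬ ℓ ∣ 4 * N := by
      intro hd
      rcases (Nat.Prime.dvd_mul hℓ).mp hd with h4 | hN
      · have h4' : ℓ ∣ 2 ^ 2 := by norm_num; exact h4
        have := (Nat.prime_dvd_prime_iff_eq hℓ Nat.prime_two).mp (hℓ.dvd_of_dvd_pow h4')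
        exact h2 this
      · exact hℓN hN
    exact inj_transfer (N := N) (M := 4 * N) (Dvd.intro_left 4 rfl) hA m hm hgen
      (finrank_le_bar (4 * N) A hA hℓM)
      (hcore (4 * N) A ℓ (Or.inl (Dvd.intro N rfl)) hℓM hA m hm)

/-- **S18 from the output of P2-CORE** -/
theorem s18_of_coreInj (hcore : CoreInjStatement) (N : ℕ) [NeZero N] {ℓ : ℕ}
    [Fact ℓ.Prime] (hℓN : ¬ ℓ ∣ N) (A : ValuationSubring (AlgebraicClosure ℚ))
    (hA : A.LiesOverPrime ℓ)
    (h : ModularCurve.ReductionInputsModL A N) (m : ℕ) (hm : ¬ ℓ ∣ m)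
    (z : ModularCurve.JZero N)
    (hmz : m • z = 0) (hz : ModularCurve.reductionModL A N z = 0) : z = 0 :=
  s18_of_inj A (Fermat.Agent.P2.helper95.constBar N A) m (fun h0 => hm (h0 ▸ dvd_zero ℓ))
    (inj_of_coreInj hcore N hℓN A hA h.choose_spec.2 m hm) h z hmz hz

end Fermat.Agent.S18.helper19
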