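import Fermat.Agent.S18.helper19_Wiring
import Fermat.Agent.P2.helper74_Riemann
import Fermat.Agent.P2.helper95_FFl2

/-!
# S18 endgame (helper19): `ConstBarStatement` from one separating element

* `isAlgClosed_residueField` : the residue field of a valuation subring of an algebraically
  closed field is algebraically closed.
* `constBar_of_separating` : `ConstBarStatement N A` as soon as the special fibre field has a
  separating transcendental element.
-/

set_option autoImplicit false

noncomputable section

open HahnSeries IntermediateField AlgebraicCurve ModularCurve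

namespace Fermat.Agent.S18.helper19

/-- the residue field of a valuation subring of an algebraically closed field is
algebraically closed -/
theorem isAlgClosed_residueField {K : Type*} [Field K] [IsAlgClosed K] (A : ValuationSubring K) :
    IsAlgClosed (IsLocalRing.ResidueField A) := by
  refine IsAlgClosed.of_exists_root _ fun p hpm hpi => ?_
  have hsurj : Function.Surjective (IsLocalRing.residue A) := IsLocalRing.residue_surjective
  obtain ⟨P, hP, hPdeg, hPm⟩ := Polynomial.lifts_and_degree_eq_and_monic
    ((Polynomial.mem_lifts p).mpr (Polynomial.map_surjective _ hsurj p)) hpm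
  have hdeg : (P.map (algebraMap A K)).degree ≠ 0 := by
    rw [Polynomial.degree_map_eq_of_injective (FaithfulSMul.algebraMap_injective A K), hPdeg]
    exact (Polynomial.degree_pos_of_irreducible hpi).ne'
  obtain ⟨x, hx⟩ := IsAlgClosed.exists_root (P.map (algebraMap A K)) hdeg
  have hint : IsIntegral A x := ⟨P, hPm, by
    rw [Polynomial.eval₂_eq_eval_map]; exact hx⟩
  obtain ⟨a, rfl⟩ := IsIntegrallyClosed.algebraMap_eq_of_integral hint
  refine ⟨IsLocalRing.residue A a, ?_⟩
  have ha : P.eval a = 0 := by
    apply FaithfulSMul.algebraMap_injective A K
    rw [map_zero, ← Polynomial.eval_map_apply]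
    exact hx
  rw [← hP, Polynomial.eval_map, Polynomial.eval₂_at_apply, ha, map_zero]

/-- `ConstBarStatement` from a Riemann setting on the special fibre field -/
theorem constBar_of_riemannSetting (N : ℕ) [NeZero N] (A : ValuationSubring Kb)
    (hS : Fermat.Agent.P2.helper74.RiemannSetting (kA A) (FFb A N)) :
    ConstBarStatement N A := fun _ _ hy =>
  Fermat.Agent.P2.helper74.exists_eq_algebraMap_of_forall_ord_nonneg hS (fun Q => (hy Q).ge)

/-- a function field with a separating element has a place (any characteristic) -/
theorem nonempty_place_of_separating {K F : Type*} [Field K] [Field F] [Algebra K F]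
    [IsAlgClosed K] (x : F) (hx : Transcendental K x) [FiniteDimensional K⟮x⟯ F]
    [Algebra.IsSeparable K⟮x⟯ F] : Nonempty (Place K F) := by
  by_contra h
  rw [not_nonempty_iff] at h
  have h1 := Fermat.Agent.P2.helper95.ffl_sum_ord_zeros x hx
  have h2 : (Fermat.Agent.P2.helper95.ffl_finite_zeros x hx).toFinset = ∅ :=
    Finset.eq_empty_of_isEmpty _
  rw [h2, Finset.sum_empty] at h1
  have hn : 0 < Module.finrank K⟮x⟯ F := Module.finrank_pos
  omega

/-- the Riemann setting of a function field with a separating element (any characteristic) -/
theorem riemannSetting_of_separating {K F : Type*} [Field K] [Field F] [Algebra K F]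
    [IsAlgClosed K] (x : F) (hx : Transcendental K x) [FiniteDimensional K⟮x⟯ F]
    [Algebra.IsSeparable K⟮x⟯ F] : Fermat.Agent.P2.helper74.RiemannSetting K F :=
  haveI := Fermat.Agent.P2.helper95.ffl_hasPrincipalDivisors x hx
  haveI := nonempty_place_of_separating x hx
  Fermat.Agent.P2.helper74.RiemannSetting.of_ff x hx

/-- `ConstBarStatement` from ONE separating element of the special fibre field -/
theorem constBar_of_separating (N : ℕ) [NeZero N] (A : ValuationSubring Kb)
    (x : FFb A N) (hx : Transcendental (kA A) x) [FiniteDimensional (kA A)⟮x⟯ (FFb A N)]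
    [Algebra.IsSeparable (kA A)⟮x⟯ (FFb A N)] : ConstBarStatement N A :=
  haveI := isAlgClosed_residueField A
  constBar_of_riemannSetting N A (riemannSetting_of_separating x hx)

end Fermat.Agent.S18.helper19
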