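import Mathlib

/-!
# S18 endgame (helper19): abstract descent of Kummer generators along a reduction relation

Abstract core of the transfer `InjStatement M → InjStatement N` (`N ∣ M`).  Mathlib only.

`IsRed A R` : `R : F → Fb → Prop` is a "reduction relation" (functional, additive,
multiplicative, compatible with inverses and with the residue map of the valuation ring `A`).

`kummer_descent` : if `f ∈ E` reduces to `1` and `f = c * u ^ m` with `u ∈ F`, then `u ∈ E`,
provided the residue degree of `F / L` is at least the degree and the reductions of the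
elements of `E` lie in `Eb`.
-/

set_option autoImplicit false

noncomputable section

namespace Fermat.Agent.S18.helper19

open Module

section Core

variable {K F Fb : Type*} [Field K] [Field F] [Algebra K F] (A : ValuationSubring K)
  [Field Fb] [Algebra (IsLocalRing.ResidueField A) Fb]

/-- a reduction relation -/
structure IsRed (R : F → Fb → Prop) : Prop where
  unique : ∀ {x : F} {y y' : Fb}, R x y → R x y' → y = y'
  add : ∀ {x x' : F} {y y' : Fb}, R x y → R x' y' → R (x + x') (y + y')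
  mul : ∀ {x x' : F} {y y' : Fb}, R x y → R x' y' → R (x * x') (y * y')
  inv : ∀ {x : F} {y : Fb}, R x y → y ≠ 0 → R x⁻¹ y⁻¹
  const : ∀ a : A, R (algebraMap K F (a : K))
    (algebraMap (IsLocalRing.ResidueField A) Fb (IsLocalRing.residue A a))

variable {A} {R : F → Fb → Prop}

namespace IsRed

theorem zero (hR : IsRed A R) : R 0 0 := by
  simpa using hR.const 0

theorem one (hR : IsRed A R) : R 1 1 := by
  simpa using hR.const 1

theorem neg (hR : IsRed A R) {x : F} {y : Fb} (h : R x y) : R (-x) (-y) := by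
  have h1 : R (-1) (-1) := by simpa using hR.const (-1)
  simpa using hR.mul h1 h

theorem sub (hR : IsRed A R) {x x' : F} {y y' : Fb} (h : R x y) (h' : R x' y') :
    R (x - x') (y - y') := by
  rw [sub_eq_add_neg, sub_eq_add_neg]
  exact hR.add h (hR.neg h')

theorem pow (hR : IsRed A R) {x : F} {y : Fb} (h : R x y) (n : ℕ) : R (x ^ n) (y ^ n) := by
  induction n with
  | zero => rw [pow_zero, pow_zero]; exact hR.one
  | succ n ih => rw [pow_succ, pow_succ]; exact hR.mul ih h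

theorem ne_zero (hR : IsRed A R) {x : F} {y : Fb} (h : R x y) (hy : y ≠ 0) : x ≠ 0 := by
  rintro rfl
  exact hy (hR.unique h hR.zero)

theorem sum (hR : IsRed A R) {ι : Type*} (s : Finset ι) {x : ι → F} {y : ι → Fb}
    (h : ∀ i ∈ s, R (x i) (y i)) : R (∑ i ∈ s, x i) (∑ i ∈ s, y i) := by
  classical
  induction s using Finset.induction_on with
  | empty => simpa using hR.zero
  | insert a s ha ih =>
    rw [Finset.sum_insert ha, Finset.sum_insert ha]
    exact hR.add (h a (Finset.mem_insert_self a s))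
      (ih fun i hi => h i (Finset.mem_insert_of_mem hi))

/-- a constant with nonzero reduction lies in `A` and reduces to its residue class -/
theorem exists_of_const (hR : IsRed A R) {c : K} {z : Fb}
    (h : R (algebraMap K F c) z) (hz : z ≠ 0) :
    ∃ a : A, (a : K) = c ∧
      z = algebraMap (IsLocalRing.ResidueField A) Fb (IsLocalRing.residue A a) := by
  by_cases hcA : c ∈ A
  · exact ⟨⟨c, hcA⟩, rfl, hR.unique h (hR.const ⟨c, hcA⟩)⟩
  · exfalso
    have hc0 : c ≠ 0 := fun h0 => hcA (h0 ▸ A.zero_mem)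
    have hinv : c⁻¹ ∈ A := (A.mem_or_inv_mem c).resolve_left hcA
    have hnu : ¬ IsUnit (⟨c⁻¹, hinv⟩ : A) := by
      intro hu
      obtain ⟨b, hb⟩ := hu.exists_right_inv
      have hb' : c⁻¹ * (b : K) = 1 := congrArg Subtype.val hb
      have : (b : K) = c := by
        field_simp at hb'
        exact hb'
      exact hcA (this ▸ b.2)
    have hres : IsLocalRing.residue A ⟨c⁻¹, hinv⟩ = 0 :=
      (IsLocalRing.residue_eq_zero_iff _).mpr hnu
    have h1 := hR.unique (hR.inv h hz) (by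
      have := hR.const ⟨c⁻¹, hinv⟩
      rwa [map_inv₀] at this)
    rw [hres, map_zero] at h1
    exact inv_ne_zero hz h1

/-- simultaneous normalisation of a finite family of elements of `L` -/
theorem exists_common_norm (hR : IsRed A R) (L : IntermediateField K F)
    (Lb : IntermediateField (IsLocalRing.ResidueField A) Fb)
    (hnorm : ∀ a : L, a ≠ 0 → ∃ c : K, c ≠ 0 ∧ ∃ b : Lb, b ≠ 0 ∧
      R (algebraMap K F c⁻¹ * (a : F)) (b : Fb))
    {ι : Type*} (s : Finset ι) (a : ι → L) (hne : ∃ i ∈ s, a i ≠ 0) :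
    ∃ c₀ : K, c₀ ≠ 0 ∧ ∃ b : ι → Lb, (∃ i ∈ s, b i ≠ 0) ∧
      ∀ i ∈ s, R (algebraMap K F c₀⁻¹ * (a i : F)) (b i : Fb) := by
  classical
  -- choose normalisations
  have hch : ∀ i : ι, ∃ c : K, c ≠ 0 ∧ ∃ b : Lb, (a i ≠ 0 → b ≠ 0 ∧
      R (algebraMap K F c⁻¹ * (a i : F)) (b : Fb)) := by
    intro i
    by_cases hi : a i = 0
    · exact ⟨1, one_ne_zero, 0, fun h => absurd hi h⟩
    · obtain ⟨c, hc, b, hb, hRb⟩ := hnorm (a i) hi
      exact ⟨c, hc, b, fun _ => ⟨hb, hRb⟩⟩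
  choose c hc b hb using hch
  set s' := s.filter (fun i => a i ≠ 0) with hs'
  have hs'ne : s'.Nonempty := by
    obtain ⟨i, hi, hai⟩ := hne
    exact ⟨i, Finset.mem_filter.mpr ⟨hi, hai⟩⟩
  obtain ⟨i₀, hi₀, hmax⟩ := Finset.exists_max_image s' (fun i => A.valuation (c i)) hs'ne
  have hi₀' := Finset.mem_filter.mp hi₀
  have hmem : ∀ i ∈ s', (c i₀)⁻¹ * c i ∈ A := by
    intro i hi
    have hle := hmax i hi
    have hv : A.valuation ((c i₀)⁻¹ * c i) ≤ 1 := by
      rw [map_mul, map_inv₀]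
      have hpos : A.valuation (c i₀) ≠ 0 := (Valuation.ne_zero_iff _).mpr (hc i₀)
      rw [inv_mul_le_iff₀ (zero_lt_iff.mpr hpos), mul_one]
      exact hle
    exact (A.valuation_le_one_iff _).mp hv
  have hex : ∀ i : ι, ∃ b' : Lb, (i ∈ s → R (algebraMap K F (c i₀)⁻¹ * (a i : F)) (b' : Fb)) ∧
      (i = i₀ → b' ≠ 0) := by
    intro i
    by_cases his : i ∈ s'
    · have hai := (Finset.mem_filter.mp his).2
      have hRi := (hb i hai).2
      have hconst := hR.const ⟨(c i₀)⁻¹ * c i, hmem i his⟩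
      have hprod := hR.mul hconst hRi
      have e : algebraMap K F ((c i₀)⁻¹ * c i) * (algebraMap K F (c i)⁻¹ * (a i : F)) =
          algebraMap K F (c i₀)⁻¹ * (a i : F) := by
        rw [← mul_assoc, ← map_mul, mul_assoc, mul_inv_cancel₀ (hc i), mul_one]
      rw [e] at hprod
      refine ⟨(⟨algebraMap (IsLocalRing.ResidueField A) Fb (IsLocalRing.residue A
        ⟨(c i₀)⁻¹ * c i, hmem i his⟩), Lb.algebraMap_mem _⟩ : Lb) * b i, fun _ => hprod, ?_⟩
      rintro rfl
      have h1 : (⟨(c i)⁻¹ * c i, hmem i his⟩ : A) = 1 := Subtype.ext (inv_mul_cancel₀ (hc i))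
      have e1 : (⟨algebraMap (IsLocalRing.ResidueField A) Fb (IsLocalRing.residue A
        ⟨(c i)⁻¹ * c i, hmem i his⟩), Lb.algebraMap_mem _⟩ : Lb) = 1 := by
        apply Subtype.ext
        show algebraMap (IsLocalRing.ResidueField A) Fb _ = 1
        rw [h1, map_one, map_one]
      rw [e1, one_mul]
      exact (hb i hai).1
    · refine ⟨0, fun hi => ?_, ?_⟩
      · have hai : a i = 0 := by
          by_contra h
          exact his (Finset.mem_filter.mpr ⟨hi, h⟩)
        rw [hai]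
        simpa using hR.zero
      · rintro rfl
        exact absurd hi₀ his
  choose b' hb'1 hb'2 using hex
  exact ⟨c i₀, hc i₀, b', ⟨i₀, hi₀'.1, hb'2 i₀ rfl⟩, fun i hi => hb'1 i hi⟩

/-- normal form of a nontrivial `L`-linear combination of lifts of an independent family -/
theorem exists_norm_combination (hR : IsRed A R) (L : IntermediateField K F)
    (Lb : IntermediateField (IsLocalRing.ResidueField A) Fb)
    (hnorm : ∀ a : L, a ≠ 0 → ∃ c : K, c ≠ 0 ∧ ∃ b : Lb, b ≠ 0 ∧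
      R (algebraMap K F c⁻¹ * (a : F)) (b : Fb))
    {ι : Type*} [Fintype ι] (θ : ι → F) (θb : ι → Fb) (hθ : ∀ i, R (θ i) (θb i))
    (hli : LinearIndependent Lb θb) (a : ι → L) (hne : ∃ i, a i ≠ 0) :
    ∃ c₀ : K, c₀ ≠ 0 ∧ ∃ b : ι → Lb, (∃ i, b i ≠ 0) ∧
      (∀ i, R (algebraMap K F c₀⁻¹ * (a i : F)) (b i : Fb)) ∧
      R (algebraMap K F c₀⁻¹ * ∑ i, a i • θ i) (∑ i, b i • θb i) ∧
      (∑ i, b i • θb i) ≠ 0 := by
  obtain ⟨c₀, hc₀, b, ⟨i₁, -, hb1⟩, hb⟩ := hR.exists_common_norm L Lb hnorm Finset.univ a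
    (by obtain ⟨i, hi⟩ := hne; exact ⟨i, Finset.mem_univ i, hi⟩)
  refine ⟨c₀, hc₀, b, ⟨i₁, hb1⟩, fun i => hb i (Finset.mem_univ i), ?_, ?_⟩
  · rw [Finset.mul_sum]
    refine hR.sum _ fun i _ => ?_
    have e1 : algebraMap K F c₀⁻¹ * a i • θ i = (algebraMap K F c₀⁻¹ * (a i : F)) * θ i := by
      rw [mul_assoc]; rfl
    have e2 : b i • θb i = (b i : Fb) * θb i := rfl
    rw [e1, e2]
    exact hR.mul (hb i (Finset.mem_univ i)) (hθ i)
  · intro h0
    have := (Fintype.linearIndependent_iff.mp hli) b h0 i₁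
    exact hb1 this

/-- lifts of an independent family are independent -/
theorem linearIndependent_lift (hR : IsRed A R) (L : IntermediateField K F)
    (Lb : IntermediateField (IsLocalRing.ResidueField A) Fb)
    (hnorm : ∀ a : L, a ≠ 0 → ∃ c : K, c ≠ 0 ∧ ∃ b : Lb, b ≠ 0 ∧
      R (algebraMap K F c⁻¹ * (a : F)) (b : Fb))
    {ι : Type*} [Fintype ι] (θ : ι → F) (θb : ι → Fb) (hθ : ∀ i, R (θ i) (θb i))
    (hli : LinearIndependent Lb θb) : LinearIndependent L θ := by
  rw [Fintype.linearIndependent_iff]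
  intro a ha
  by_contra hne
  push_neg at hne
  obtain ⟨c₀, -, b, -, -, hsum, hsum0⟩ :=
    hR.exists_norm_combination L Lb hnorm θ θb hθ hli a hne
  rw [ha, mul_zero] at hsum
  exact hsum0 (hR.unique hsum hR.zero)

end IsRed

/-- an element whose power is a constant is a constant (over an algebraically closed field) -/
theorem exists_algebraMap_eq_of_pow {k Fb : Type*} [Field k] [IsAlgClosed k] [Field Fb]
    [Algebra k Fb] {y : Fb} {m : ℕ} (hm : m ≠ 0) {t : k} (h : y ^ m = algebraMap k Fb t) :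
    ∃ ξ : k, y = algebraMap k Fb ξ := by
  have hint : IsIntegral k y := by
    refine ⟨Polynomial.X ^ m - Polynomial.C t, Polynomial.monic_X_pow_sub_C t hm, ?_⟩
    simp [h]
  have hdeg := IsAlgClosed.degree_eq_one_of_irreducible k (minpoly.irreducible hint)
  obtain ⟨ξ, hξ⟩ := minpoly.mem_range_of_degree_eq_one k y hdeg
  exact ⟨ξ, hξ.symm⟩

/-- **abstract Kummer descent** -/
theorem kummer_descent (hR : IsRed A R) [IsAlgClosed (IsLocalRing.ResidueField A)]
    (L E : IntermediateField K F) (hLE : L ≤ E)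
    (Lb Eb : IntermediateField (IsLocalRing.ResidueField A) Fb) (hLEb : Lb ≤ Eb)
    [FiniteDimensional L F]
    (hnorm : ∀ a : L, a ≠ 0 → ∃ c : K, c ≠ 0 ∧ ∃ b : Lb, b ≠ 0 ∧
      R (algebraMap K F c⁻¹ * (a : F)) (b : Fb))
    (hliftF : ∀ y : Fb, ∃ x : F, R x y) (hliftE : ∀ y ∈ Eb, ∃ x ∈ E, R x y)
    (hredE : ∀ x ∈ E, ∀ y : Fb, R x y → y ≠ 0 → y ∈ Eb)
    (hdeg : Module.finrank L F ≤ Module.finrank Lb Fb)
    (m : ℕ) (hm : (m : IsLocalRing.ResidueField A) ≠ 0)
    (f : F) (hfE : f ∈ E) (hf1 : R f 1) (c : K) (u : F)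
    (hfu : f = algebraMap K F c * u ^ m) : u ∈ E := by
  classical
  have hm0 : m ≠ 0 := by
    rintro rfl
    exact hm (by simp)
  have hf0 : f ≠ 0 := hR.ne_zero hf1 one_ne_zero
  have hc0 : c ≠ 0 := by
    rintro rfl
    rw [map_zero, zero_mul] at hfu
    exact hf0 hfu
  have hu0 : u ≠ 0 := by
    rintro rfl
    rw [zero_pow hm0, mul_zero] at hfu
    exact hf0 hfu
  have hposL : 0 < Module.finrank L F := Module.finrank_pos
  haveI : FiniteDimensional Lb Fb :=
    Module.finite_of_finrank_pos (lt_of_lt_of_le hposL hdeg)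
  -- the subspace `Eb`
  obtain ⟨Es, hEs⟩ : ∃ Es : Submodule Lb Fb, ∀ y : Fb, y ∈ Es ↔ y ∈ Eb :=
    ⟨(IntermediateField.extendScalars hLEb).toSubalgebra.toSubmodule, fun y => Iff.rfl⟩
  -- bases of `Es` and of the quotient
  obtain ⟨n₁, ⟨bE⟩⟩ : ∃ n₁ : ℕ, Nonempty (Module.Basis (Fin n₁) Lb Es) :=
    ⟨_, ⟨Module.finBasis Lb Es⟩⟩
  obtain ⟨n₂, ⟨bQ⟩⟩ : ∃ n₂ : ℕ, Nonempty (Module.Basis (Fin n₂) Lb (Fb ⧸ Es)) :=
    ⟨_, ⟨Module.finBasis Lb (Fb ⧸ Es)⟩⟩
  have hg : ∀ j, ∃ g : Fb, Es.mkQ g = bQ j := fun j => Es.mkQ_surjective _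
  choose g hg using hg
  have hθ1 : ∀ i, ∃ x ∈ E, R x (bE i : Fb) := fun i => hliftE _ ((hEs _).mp (bE i).2)
  choose θ1 hθ1E hθ1R using hθ1
  have hθ2 : ∀ j, ∃ x : F, R x (g j) := fun j => hliftF _
  choose θ2 hθ2R using hθ2
  have hli2 : LinearIndependent Lb (Submodule.Quotient.mk (p := Es) ∘ g) := by
    have e : (Submodule.Quotient.mk (p := Es) ∘ g) = bQ := funext hg
    rw [e]
    exact bQ.linearIndependent
  have hlib : LinearIndependent Lb (Sum.elim (fun i => (bE i : Fb)) g) :=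
    LinearIndependent.sumElim_of_quotient bE.linearIndependent g hli2
  have hθR : ∀ i, R (Sum.elim θ1 θ2 i) (Sum.elim (fun i => (bE i : Fb)) g i) := by
    rintro (i | j)
    · exact hθ1R i
    · exact hθ2R j
  have hliθ : LinearIndependent L (Sum.elim θ1 θ2) :=
    hR.linearIndependent_lift L Lb hnorm _ _ hθR hlib
  -- the lifts span
  have hcard : Fintype.card (Fin n₁ ⊕ Fin n₂) = Module.finrank L F := by
    apply le_antisymm hliθ.fintype_card_le_finrank
    refine hdeg.trans ?_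
    have h1 := Submodule.finrank_quotient_add_finrank Es
    have h2 : Module.finrank Lb Es = n₁ := by
      rw [Module.finrank_eq_card_basis bE, Fintype.card_fin]
    have h3 : Module.finrank Lb (Fb ⧸ Es) = n₂ := by
      rw [Module.finrank_eq_card_basis bQ, Fintype.card_fin]
    rw [Fintype.card_sum, Fintype.card_fin, Fintype.card_fin]
    omega
  have hspan := hliθ.span_eq_top_of_card_eq_finrank' hcard
  have hu : u ∈ Submodule.span L (Set.range (Sum.elim θ1 θ2)) := hspan ▸ Submodule.mem_top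
  obtain ⟨a, ha⟩ := (Submodule.mem_span_range_iff_exists_fun L).mp hu
  have hane : ∃ i, a i ≠ 0 := by
    by_contra h
    push_neg at h
    apply hu0
    rw [← ha]
    simp [h]
  obtain ⟨c₀, hc₀, b, -, hb, hUR, hU0⟩ :=
    hR.exists_norm_combination L Lb hnorm _ _ hθR hlib a hane
  rw [ha] at hUR
  obtain ⟨Ub, hUb⟩ : ∃ Ub : Fb, Ub = ∑ i, b i • Sum.elim (fun i => (bE i : Fb)) g i := ⟨_, rfl⟩
  rw [← hUb] at hUR hU0
  obtain ⟨U, hU⟩ : ∃ U : F, U = algebraMap K F c₀⁻¹ * u := ⟨_, rfl⟩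
  rw [← hU] at hUR
  have hcc : algebraMap K F c₀ ≠ 0 := fun h => hc₀ ((algebraMap K F).injective (h.trans (map_zero _).symm))
  have hU0' : U ≠ 0 := hR.ne_zero hUR hU0
  have huU : u = algebraMap K F c₀ * U := by
    rw [hU, ← mul_assoc, ← map_mul, mul_inv_cancel₀ hc₀, map_one, one_mul]
  -- the constant `κ = c * c₀ ^ m`
  have hUm : R (U ^ m) (Ub ^ m) := hR.pow hUR m
  have hUbm0 : Ub ^ m ≠ 0 := pow_ne_zero _ hU0
  have hκ : R (f * (U ^ m)⁻¹) (1 * (Ub ^ m)⁻¹) := hR.mul hf1 (hR.inv hUm hUbm0)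
  have eκ : f * (U ^ m)⁻¹ = algebraMap K F (c * c₀ ^ m) := by
    rw [hfu, huU, mul_pow, map_mul, map_pow]
    field_simp
  rw [eκ, one_mul] at hκ
  obtain ⟨a₀, -, ha₀⟩ := hR.exists_of_const hκ (inv_ne_zero hUbm0)
  have hUbm : Ub ^ m = algebraMap (IsLocalRing.ResidueField A) Fb (IsLocalRing.residue A a₀)⁻¹ := by
    rw [map_inv₀, ← ha₀, inv_inv]
  obtain ⟨ξ, hξ⟩ := exists_algebraMap_eq_of_pow hm0 hUbm
  have hξ0 : ξ ≠ 0 := by
    rintro rfl
    rw [map_zero] at hξ
    exact hU0 hξ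
  -- the coefficients of `Ub` on the quotient part vanish
  have hinl : ∀ i, Es.mkQ (bE i : Fb) = 0 := fun i =>
    (Submodule.Quotient.mk_eq_zero Es).mpr (bE i).2
  have hbinr : ∀ j, b (Sum.inr j) = 0 := by
    have hmem : Ub ∈ Es := (hEs _).mpr (hξ ▸ Eb.algebraMap_mem ξ)
    have h0 : Es.mkQ Ub = 0 := (Submodule.Quotient.mk_eq_zero Es).mpr hmem
    rw [hUb, Fintype.sum_sum_type, map_add, map_sum, map_sum] at h0
    simp only [Sum.elim_inl, Sum.elim_inr, map_smul, hinl, smul_zero, Finset.sum_const_zero,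
      zero_add, hg] at h0
    exact fun j => (Fintype.linearIndependent_iff.mp bQ.linearIndependent)
      (fun j => b (Sum.inr j)) h0 j
  -- splitting `u`
  obtain ⟨T1, hT1⟩ : ∃ T1 : F, T1 = ∑ i, a (Sum.inl i) • θ1 i := ⟨_, rfl⟩
  obtain ⟨T, hT⟩ : ∃ T : F, T = ∑ j, a (Sum.inr j) • θ2 j := ⟨_, rfl⟩
  have huT : u = T1 + T := by
    rw [← ha, Fintype.sum_sum_type, hT1, hT]
    rfl
  have hT1E : T1 ∈ E := by
    rw [hT1]
    exact sum_mem fun i _ => E.mul_mem (hLE (a (Sum.inl i)).2) (hθ1E i)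
  by_cases hcase : ∀ j, a (Sum.inr j) = 0
  · have hT0 : T = 0 := by
      rw [hT]
      exact Finset.sum_eq_zero fun j _ => by rw [hcase j, zero_smul]
    rw [huT, hT0, add_zero]
    exact hT1E
  exfalso
  push_neg at hcase
  obtain ⟨U1, hU1⟩ : ∃ U1 : F, U1 = algebraMap K F c₀⁻¹ * T1 := ⟨_, rfl⟩
  have hU1E : U1 ∈ E := hU1 ▸ E.mul_mem (E.algebraMap_mem _) hT1E
  have hU1R : R U1 Ub := by
    have hsum : R (∑ i, (algebraMap K F c₀⁻¹ * (a (Sum.inl i) : F)) * θ1 i)
        (∑ i, (b (Sum.inl i) : Fb) * (bE i : Fb)) :=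
      hR.sum _ fun i _ => hR.mul (hb (Sum.inl i)) (hθ1R i)
    have e1 : U1 = ∑ i, (algebraMap K F c₀⁻¹ * (a (Sum.inl i) : F)) * θ1 i := by
      rw [hU1, hT1, Finset.mul_sum]
      exact Finset.sum_congr rfl fun i _ => by rw [mul_assoc]; rfl
    have e2 : Ub = ∑ i, (b (Sum.inl i) : Fb) * (bE i : Fb) := by
      rw [hUb, Fintype.sum_sum_type]
      simp only [Sum.elim_inl, Sum.elim_inr, hbinr, zero_smul, Finset.sum_const_zero, add_zero]
      rfl
    rw [e1, e2]
    exact hsum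
  -- the part outside `E`
  have hlig : LinearIndependent Lb g := LinearIndependent.of_comp Es.mkQ hli2
  obtain ⟨c₁, hc₁, b', ⟨j₁, hb'1⟩, -, hVR, -⟩ :=
    hR.exists_norm_combination L Lb hnorm θ2 g hθ2R hlig (fun j => a (Sum.inr j)) hcase
  rw [← hT] at hVR
  obtain ⟨Vb, hVb⟩ : ∃ Vb : Fb, Vb = ∑ j, b' j • g j := ⟨_, rfl⟩
  rw [← hVb] at hVR
  have hVbE : Vb ∉ Eb := by
    intro hmem
    have h0 : Es.mkQ Vb = 0 := (Submodule.Quotient.mk_eq_zero Es).mpr ((hEs _).mpr hmem)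
    rw [hVb, map_sum] at h0
    simp only [map_smul, hg] at h0
    exact hb'1 ((Fintype.linearIndependent_iff.mp bQ.linearIndependent) b' h0 j₁)
  -- the geometric sum
  have hSR : R (∑ i ∈ Finset.range m, U ^ i * U1 ^ (m - 1 - i))
      (∑ i ∈ Finset.range m, Ub ^ i * Ub ^ (m - 1 - i)) :=
    hR.sum _ fun i _ => hR.mul (hR.pow hUR i) (hR.pow hU1R _)
  have hSb : (∑ i ∈ Finset.range m, Ub ^ i * Ub ^ (m - 1 - i)) =
      algebraMap (IsLocalRing.ResidueField A) Fb ((m : IsLocalRing.ResidueField A) * ξ ^ (m - 1)) := by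
    have e : ∀ i ∈ Finset.range m, Ub ^ i * Ub ^ (m - 1 - i) = Ub ^ (m - 1) := by
      intro i hi
      rw [← pow_add]
      congr 1
      have := Finset.mem_range.mp hi
      omega
    rw [Finset.sum_congr rfl e, Finset.sum_const, Finset.card_range, nsmul_eq_mul, hξ,
      map_mul, map_pow, map_natCast]
  rw [hSb] at hSR
  have hSb0 : algebraMap (IsLocalRing.ResidueField A) Fb
      ((m : IsLocalRing.ResidueField A) * ξ ^ (m - 1)) ≠ 0 := by
    intro h
    have := (algebraMap (IsLocalRing.ResidueField A) Fb).injective (h.trans (map_zero _).symm)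
    exact mul_ne_zero hm (pow_ne_zero _ hξ0) this
  have hWR := hR.mul hVR hSR
  have hWE : algebraMap K F c₁⁻¹ * T * (∑ i ∈ Finset.range m, U ^ i * U1 ^ (m - 1 - i)) ∈ E := by
    have hTU : T = algebraMap K F c₀ * (U - U1) := by
      rw [hU, hU1, ← mul_sub, ← mul_assoc, ← map_mul, mul_inv_cancel₀ hc₀, map_one, one_mul, huT]
      ring
    have e : algebraMap K F c₁⁻¹ * T * (∑ i ∈ Finset.range m, U ^ i * U1 ^ (m - 1 - i)) =
        algebraMap K F c₁⁻¹ * algebraMap K F c₀ * (U ^ m - U1 ^ m) := by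
      rw [hTU, ← geom_sum₂_mul U U1 m]
      ring
    rw [e]
    have hUmE : U ^ m ∈ E := by
      have hUm0 : U ^ m ≠ 0 := pow_ne_zero _ hU0'
      have : U ^ m = algebraMap K F (c * c₀ ^ m)⁻¹ * f := by
        rw [map_inv₀, ← eκ]
        field_simp
      rw [this]
      exact E.mul_mem (E.algebraMap_mem _) hfE
    exact E.mul_mem (E.mul_mem (E.algebraMap_mem _) (E.algebraMap_mem _))
      (E.sub_mem hUmE (pow_mem hU1E m))
  have hVb0 : Vb ≠ 0 := fun h => hVbE (h ▸ Eb.zero_mem)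
  have hWbE := hredE _ hWE _ hWR (mul_ne_zero hVb0 hSb0)
  apply hVbE
  have := Eb.mul_mem hWbE (Eb.inv_mem (Eb.algebraMap_mem ((m : IsLocalRing.ResidueField A) * ξ ^ (m - 1))))
  rwa [mul_assoc, mul_inv_cancel₀ hSb0, mul_one] at this

end Core

end Fermat.Agent.S18.helper19
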