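import Fermat.Agent.S18.helper19_Red

/-!
# S18 endgame (helper19): normal forms for rational functions in `j`

* `exists_primitive` : a nonzero polynomial over `K` is a constant times a polynomial over the
  valuation ring `A` with nonzero reduction.
* `red_aeval` : reduction of polynomial expressions in an integral series.
* `exists_red_of_mem_adjoin` : every nonzero element of `K(j)` is a constant times an element
  with nonzero reduction in `k(j̄)`.
* `exists_common_normalisation` : simultaneous normalisation of a finite family.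
-/

set_option autoImplicit false

noncomputable section

open HahnSeries ModularCurve Polynomial

namespace Fermat.Agent.S18.helper19

section Norm

variable {K : Type*} [Field K] {A : ValuationSubring K}

/-- a nonzero polynomial is a constant times an integral polynomial with nonzero reduction -/
theorem exists_primitive (P : K[X]) (hP : P ≠ 0) :
    ∃ (c : K) (P₁ : A[X]), c ≠ 0 ∧ P = C c * P₁.map A.subtype ∧
      P₁.map (IsLocalRing.residue A) ≠ 0 := by
  classical
  have hne : P.support.Nonempty := by
    rw [Finset.nonempty_iff_ne_empty, ne_eq, Polynomial.support_eq_empty]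
    exact hP
  obtain ⟨n₀, hn₀, hmax⟩ := Finset.exists_max_image P.support
    (fun n => A.valuation (P.coeff n)) hne
  have hc0 : P.coeff n₀ ≠ 0 := Polynomial.mem_support_iff.mp hn₀
  have hmem : C (P.coeff n₀)⁻¹ * P ∈ Polynomial.lifts A.subtype := by
    rw [Polynomial.lifts_iff_coeff_lifts]
    intro n
    rw [Polynomial.coeff_C_mul]
    by_cases hn : n ∈ P.support
    · have hle := hmax n hn
      have hv : A.valuation ((P.coeff n₀)⁻¹ * P.coeff n) ≤ 1 := by
        rw [map_mul, map_inv₀]
        have hpos : A.valuation (P.coeff n₀) ≠ 0 := (Valuation.ne_zero_iff _).mpr hc0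
        rw [inv_mul_le_iff₀ (zero_lt_iff.mpr hpos), mul_one]
        exact hle
      exact ⟨⟨_, (A.valuation_le_one_iff _).mp hv⟩, rfl⟩
    · rw [Polynomial.notMem_support_iff.mp hn, mul_zero]
      exact ⟨0, map_zero _⟩
  obtain ⟨P₁, hP₁⟩ := hmem
  refine ⟨P.coeff n₀, P₁, hc0, ?_, ?_⟩
  · have hP₁' : P₁.map A.subtype = C (P.coeff n₀)⁻¹ * P := hP₁
    rw [hP₁', ← mul_assoc, ← C_mul, mul_inv_cancel₀ hc0, C_1, one_mul]
  · intro h0
    have h1 : (P₁.map A.subtype).coeff n₀ = 1 := by
      have hP₁' : P₁.map A.subtype = C (P.coeff n₀)⁻¹ * P := hP₁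
      rw [hP₁', Polynomial.coeff_C_mul, inv_mul_cancel₀ hc0]
    rw [Polynomial.coeff_map] at h1
    have h2 : P₁.coeff n₀ = 1 := A.subtype_injective (h1.trans (map_one _).symm)
    have h3 := congrArg (fun Q => Q.coeff n₀) h0
    simp only [Polynomial.coeff_map, h2, map_one, Polynomial.coeff_zero] at h3
    exact one_ne_zero h3

theorem algebraMap_laurent_single {R : Type*} [CommRing R] (c : R) :
    algebraMap R (LaurentSeries R) c = HahnSeries.single 0 c := by
  have h1 : algebraMap R (PowerSeries R) c = PowerSeries.C c := by simp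
  rw [HahnSeries.algebraMap_apply', h1, HahnSeries.ofPowerSeries_C]
  rfl

theorem coeffMap_aeval {R S : Type*} [CommRing R] [CommRing S] (f : R →+* S)
    (x : LaurentSeries R) (P : R[X]) :
    coeffMap f (aeval x P) = aeval (coeffMap f x) (P.map f) := by
  apply Polynomial.map_aeval_eq_aeval_map
  apply RingHom.ext
  intro a
  simp only [RingHom.comp_apply]
  rw [algebraMap_laurent_single, algebraMap_laurent_single, coeffMap_single]

/-- reduction of polynomial expressions in an integral series -/
theorem red_aeval (jA : LaurentSeries A) (P₁ : A[X]) :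
    Red A (aeval (coeffMap A.subtype jA) (P₁.map A.subtype))
      (aeval (coeffMap (IsLocalRing.residue A) jA) (P₁.map (IsLocalRing.residue A))) := by
  rw [← coeffMap_aeval, ← coeffMap_aeval]
  exact Red.of_series _

/-- a nonzero polynomial expression in `j` is a constant times a reducible element with nonzero
reduction, provided `j̄` is transcendental -/
theorem exists_red_aeval (jA : LaurentSeries A)
    (htr : Transcendental (IsLocalRing.ResidueField A) (coeffMap (IsLocalRing.residue A) jA))
    (P : K[X]) (hP : P ≠ 0) :
    ∃ (c : K) (Pb : (IsLocalRing.ResidueField A)[X]), c ≠ 0 ∧ Pb ≠ 0 ∧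
      aeval (coeffMap (IsLocalRing.residue A) jA) Pb ≠ 0 ∧
      Red A (algebraMap K (LaurentSeries K) c⁻¹ * aeval (coeffMap A.subtype jA) P)
        (aeval (coeffMap (IsLocalRing.residue A) jA) Pb) := by
  obtain ⟨c, P₁, hc, hPc, hP₁⟩ := exists_primitive (A := A) P hP
  refine ⟨c, P₁.map (IsLocalRing.residue A), hc, hP₁, ?_, ?_⟩
  · intro h0
    exact hP₁ ((transcendental_iff.mp htr) _ h0)
  · have e : algebraMap K (LaurentSeries K) c⁻¹ * aeval (coeffMap A.subtype jA) P =
        aeval (coeffMap A.subtype jA) (P₁.map A.subtype) := by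
      rw [hPc, map_mul, aeval_C, ← mul_assoc, ← map_mul, inv_mul_cancel₀ hc, map_one, one_mul]
    rw [e]
    exact red_aeval jA P₁

end Norm

end Fermat.Agent.S18.helper19
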