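import Mathlib
import Fermat.Prelude.Def_ModularCurve_ReductionModL

/-!
# S18 endgame (helper19): the reduction relation of the Gauss valuation on Laurent series

`Red A x y` : the Laurent series `x` over `K` is a quotient `Y₁ / Y₂` of series with coefficients
in the valuation ring `A`, the reduction of `Y₂` is nonzero, and `y = red Y₁ / red Y₂`.
This is a functional, additive and multiplicative relation.
-/

set_option autoImplicit false

noncomputable section

open HahnSeries ModularCurve

namespace Fermat.Agent.S18.helper19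

section Red

variable {K : Type*} [Field K] (A : ValuationSubring K)

theorem coeffMap_subtype_inj : Function.Injective (coeffMap A.subtype) := by
  intro x y h
  apply HahnSeries.ext
  funext n
  have := congrArg (fun z => z.coeff n) h
  simp only [coeffMap_coeff] at this
  exact A.subtype_injective this

/-- the reduction relation -/
def Red (x : LaurentSeries K) (y : LaurentSeries (IsLocalRing.ResidueField A)) : Prop :=
  ∃ Y₁ Y₂ : LaurentSeries A, coeffMap (IsLocalRing.residue A) Y₂ ≠ 0 ∧
    x * coeffMap A.subtype Y₂ = coeffMap A.subtype Y₁ ∧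
    y * coeffMap (IsLocalRing.residue A) Y₂ = coeffMap (IsLocalRing.residue A) Y₁

variable {A}

theorem Red.of_series (Y : LaurentSeries A) :
    Red A (coeffMap A.subtype Y) (coeffMap (IsLocalRing.residue A) Y) :=
  ⟨Y, 1, by rw [map_one]; exact one_ne_zero, by rw [map_one, mul_one], by rw [map_one, mul_one]⟩

theorem Red.of_quot {x : LaurentSeries K} {y : LaurentSeries (IsLocalRing.ResidueField A)}
    (Y₁ Y₂ : LaurentSeries A) (h0 : coeffMap (IsLocalRing.residue A) Y₂ ≠ 0)
    (hx : x * coeffMap A.subtype Y₂ = coeffMap A.subtype Y₁)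
    (hy : y * coeffMap (IsLocalRing.residue A) Y₂ = coeffMap (IsLocalRing.residue A) Y₁) :
    Red A x y := ⟨Y₁, Y₂, h0, hx, hy⟩

theorem red_zero : Red A (0 : LaurentSeries K) 0 := by
  simpa using Red.of_series (A := A) 0

theorem red_one : Red A (1 : LaurentSeries K) 1 := by
  simpa using Red.of_series (A := A) 1

theorem Red.unique {x : LaurentSeries K} {y y' : LaurentSeries (IsLocalRing.ResidueField A)}
    (h : Red A x y) (h' : Red A x y') : y = y' := by
  obtain ⟨Y₁, Y₂, h0, hx, hy⟩ := h
  obtain ⟨Y₁', Y₂', h0', hx', hy'⟩ := h'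
  have e : Y₁ * Y₂' = Y₁' * Y₂ := by
    apply coeffMap_subtype_inj A
    rw [map_mul, map_mul, ← hx, ← hx']
    ring
  have e' := congrArg (coeffMap (IsLocalRing.residue A)) e
  rw [map_mul, map_mul, ← hy, ← hy'] at e'
  have h00 : coeffMap (IsLocalRing.residue A) Y₂ * coeffMap (IsLocalRing.residue A) Y₂' ≠ 0 :=
    mul_ne_zero h0 h0'
  apply mul_right_cancel₀ h00
  rw [← mul_assoc, e']
  ring

theorem Red.add {x x' : LaurentSeries K} {y y' : LaurentSeries (IsLocalRing.ResidueField A)}
    (h : Red A x y) (h' : Red A x' y') : Red A (x + x') (y + y') := by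
  obtain ⟨Y₁, Y₂, h0, hx, hy⟩ := h
  obtain ⟨Y₁', Y₂', h0', hx', hy'⟩ := h'
  refine ⟨Y₁ * Y₂' + Y₁' * Y₂, Y₂ * Y₂', ?_, ?_, ?_⟩
  · rw [map_mul]; exact mul_ne_zero h0 h0'
  · rw [map_mul, map_add, map_mul, map_mul, ← hx, ← hx']; ring
  · rw [map_mul, map_add, map_mul, map_mul, ← hy, ← hy']; ring

theorem Red.mul {x x' : LaurentSeries K} {y y' : LaurentSeries (IsLocalRing.ResidueField A)}
    (h : Red A x y) (h' : Red A x' y') : Red A (x * x') (y * y') := by
  obtain ⟨Y₁, Y₂, h0, hx, hy⟩ := h
  obtain ⟨Y₁', Y₂', h0', hx', hy'⟩ := h'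
  refine ⟨Y₁ * Y₁', Y₂ * Y₂', ?_, ?_, ?_⟩
  · rw [map_mul]; exact mul_ne_zero h0 h0'
  · rw [map_mul, map_mul, ← hx, ← hx']; ring
  · rw [map_mul, map_mul, ← hy, ← hy']; ring

theorem Red.neg {x : LaurentSeries K} {y : LaurentSeries (IsLocalRing.ResidueField A)}
    (h : Red A x y) : Red A (-x) (-y) := by
  obtain ⟨Y₁, Y₂, h0, hx, hy⟩ := h
  exact ⟨-Y₁, Y₂, h0, by rw [map_neg, ← hx]; ring, by rw [map_neg, ← hy]; ring⟩

theorem Red.sub {x x' : LaurentSeries K} {y y' : LaurentSeries (IsLocalRing.ResidueField A)}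
    (h : Red A x y) (h' : Red A x' y') : Red A (x - x') (y - y') := by
  rw [sub_eq_add_neg, sub_eq_add_neg]
  exact h.add h'.neg

theorem Red.pow {x : LaurentSeries K} {y : LaurentSeries (IsLocalRing.ResidueField A)}
    (h : Red A x y) (n : ℕ) : Red A (x ^ n) (y ^ n) := by
  induction n with
  | zero => rw [pow_zero, pow_zero]; exact red_one
  | succ n ih => rw [pow_succ, pow_succ]; exact ih.mul h

theorem Red.ne_zero {x : LaurentSeries K} {y : LaurentSeries (IsLocalRing.ResidueField A)}
    (h : Red A x y) (hy : y ≠ 0) : x ≠ 0 := by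
  rintro rfl
  exact hy (h.unique red_zero)

theorem Red.inv {x : LaurentSeries K} {y : LaurentSeries (IsLocalRing.ResidueField A)}
    (h : Red A x y) (hy : y ≠ 0) : Red A x⁻¹ y⁻¹ := by
  have hx0 := h.ne_zero hy
  obtain ⟨Y₁, Y₂, h0, hx, hy'⟩ := h
  refine ⟨Y₂, Y₁, ?_, ?_, ?_⟩
  · rw [← hy']; exact mul_ne_zero hy h0
  · rw [← hx]; field_simp
  · rw [← hy']; field_simp

theorem Red.div {x x' : LaurentSeries K} {y y' : LaurentSeries (IsLocalRing.ResidueField A)}
    (h : Red A x y) (h' : Red A x' y') (hy' : y' ≠ 0) : Red A (x / x') (y / y') := by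
  rw [div_eq_mul_inv, div_eq_mul_inv]
  exact h.mul (h'.inv hy')

theorem Red.sum {ι : Type*} (s : Finset ι) {x : ι → LaurentSeries K}
    {y : ι → LaurentSeries (IsLocalRing.ResidueField A)} (h : ∀ i ∈ s, Red A (x i) (y i)) :
    Red A (∑ i ∈ s, x i) (∑ i ∈ s, y i) := by
  classical
  induction s using Finset.induction_on with
  | empty => simpa using red_zero (A := A)
  | insert a s ha ih =>
    rw [Finset.sum_insert ha, Finset.sum_insert ha]
    exact (h a (Finset.mem_insert_self a s)).add
      (ih fun i hi => h i (Finset.mem_insert_of_mem hi))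

/-- constants of `A` reduce to their residue classes -/
theorem red_const (a : A) : Red A (algebraMap K (LaurentSeries K) (a : K))
    (algebraMap (IsLocalRing.ResidueField A) (LaurentSeries (IsLocalRing.ResidueField A))
      (IsLocalRing.residue A a)) := by
  have h := Red.of_series (A := A) (HahnSeries.single 0 a)
  rw [coeffMap_single, coeffMap_single] at h
  rw [algebraMap_laurentSeries_eq_single, algebraMap_laurentSeries_eq_single]
  exact h

/-- a constant which reduces to something nonzero is a unit of `A` -/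
theorem exists_unit_of_red_const {c : K} {z : LaurentSeries (IsLocalRing.ResidueField A)}
    (h : Red A (algebraMap K (LaurentSeries K) c) z) (hz : z ≠ 0) :
    ∃ a : A, (a : K) = c ∧ IsLocalRing.residue A a ≠ 0 ∧
      z = algebraMap (IsLocalRing.ResidueField A) (LaurentSeries (IsLocalRing.ResidueField A))
        (IsLocalRing.residue A a) := by
  have hc0 : c ≠ 0 := by
    rintro rfl
    rw [map_zero] at h
    exact hz (h.unique red_zero)
  by_cases hcA : c ∈ A
  · have hz' := h.unique (red_const ⟨c, hcA⟩)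
    refine ⟨⟨c, hcA⟩, rfl, ?_, hz'⟩
    intro h0
    rw [h0, map_zero] at hz'
    exact hz hz'
  · exfalso
    have hinv : c⁻¹ ∈ A := (A.mem_or_inv_mem c).resolve_left hcA
    have hnu : ¬ IsUnit (⟨c⁻¹, hinv⟩ : A) := by
      intro hu
      obtain ⟨b, hb⟩ := hu.exists_right_inv
      have hb' : c⁻¹ * (b : K) = 1 := congrArg Subtype.val hb
      have : (b : K) = c := by
        field_simp at hb'
        exact hb'
      exact hcA (this ▸ b.2)
    have hres : IsLocalRing.residue A ⟨c⁻¹, hinv⟩ = 0 :=
      (IsLocalRing.residue_eq_zero_iff _).mpr hnu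
    have h1 := (h.inv hz).unique (by
      have := red_const (A := A) ⟨c⁻¹, hinv⟩
      rwa [map_inv₀] at this)
    rw [hres, map_zero] at h1
    exact inv_ne_zero hz h1

end Red

end Fermat.Agent.S18.helper19
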