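import Fermat.Agent.S18.helper19_Main
import Fermat.Agent.S18.helper19_ConstBar
import Fermat.Agent.S18.helper19_Norm
import Fermat.Agent.S18.helper19_Core
import Fermat.Prelude.Def_AlgebraicCurve_Correspondence

/-!
# S18 endgame (helper19): transfer of the injectivity statement from level `M` to level `N ∣ M`

`inj_transfer` : `InjStatement M A m → InjStatement N A m` for `N ∣ M`, provided the residue
degree of the function field of level `M` over `k(j̄)` is at least its degree over `ℚ̄(j)`.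
-/

set_option autoImplicit false

noncomputable section

open HahnSeries IntermediateField AlgebraicCurve ModularCurve Polynomial

namespace Fermat.Agent.S18.helper19

open Fermat.Agent.S24

section Setup

variable (A : ValuationSubring Kb) (M : ℕ)

/-- `j̄` as an element of the special fibre field -/
def xJb : FFb A M := ⟨jqModC (kA A), jqModC_mem_full (kA A) M⟩

/-- the reduction relation between the function fields of level `M` -/
def RedM : FF M → FFb A M → Prop := fun x y =>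
  Red A (x : LaurentSeries Kb) (y : LaurentSeries (kA A))

theorem isRed_redM : IsRed A (RedM A M) where
  unique h h' := Subtype.ext (Red.unique h h')
  add h h' := Red.add h h'
  mul h h' := Red.mul h h'
  inv h hy := Red.inv h (fun h0 => hy (Subtype.ext h0))
  const a := red_const a

theorem transcendental_jqModC' (k : Type*) [Field k] : Transcendental k (jqModC k) := by
  rw [transcendental_iff]
  intro p hp
  by_contra hp0
  have hcoeff : (Polynomial.aeval (jqModC k) p).coeff (-(p.natDegree : ℤ)) =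
      p.coeff p.natDegree := by
    rw [Polynomial.aeval_def, Polynomial.eval₂_eq_sum_range, HahnSeries.coeff_sum,
      Finset.sum_eq_single p.natDegree]
    · rw [algebraMap_laurent_single, HahnSeries.coeff_single_zero_mul,
        coeff_jqModC_pow_self, mul_one]
    · intro i hi hin
      have hilt : i < p.natDegree :=
        lt_of_le_of_ne (Nat.lt_succ_iff.mp (Finset.mem_range.mp hi)) hin
      rw [algebraMap_laurent_single, HahnSeries.coeff_single_zero_mul,
        coeff_jqModC_pow_of_lt, mul_zero]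
      omega
    · intro hn'
      exact absurd (Finset.self_mem_range_succ p.natDegree) hn'
  rw [hp] at hcoeff
  simp only [HahnSeries.coeff_zero] at hcoeff
  exact hp0 (Polynomial.leadingCoeff_eq_zero.mp hcoeff.symm)

theorem coe_xJ : ((xJ M : FF M) : LaurentSeries Kb) = jqModC Kb := by
  show coeffEmb Kb (qExpand ℚ 1 jq) = jqModC Kb
  rw [coeffEmb, ← jqModC_rat, qExpand_one_apply, coeffMap_jqModC]

theorem coe_xJ' : ((xJ M : FF M) : LaurentSeries Kb) = coeffMap A.subtype (jqModC A) := by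
  rw [coe_xJ, coeffMap_jqModC]

theorem coe_xJb : ((xJb A M : FFb A M) : LaurentSeries (kA A)) =
    coeffMap (IsLocalRing.residue A) (jqModC A) := by
  rw [coeffMap_jqModC]; rfl

end Setup

section Inputs

variable {A : ValuationSubring Kb} {N M : ℕ}

theorem coe_aeval_FF (x : FF M) (P : Kb[X]) :
    ((aeval x P : FF M) : LaurentSeries Kb) = aeval (x : LaurentSeries Kb) P :=
  (Polynomial.aeval_algHom_apply (FF M).val x P).symm

theorem coe_aeval_FFb (x : FFb A M) (P : (kA A)[X]) :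
    ((aeval x P : FFb A M) : LaurentSeries (kA A)) = aeval (x : LaurentSeries (kA A)) P :=
  (Polynomial.aeval_algHom_apply (FFb A M).val x P).symm

/-- normalisation of the elements of `ℚ̄(j)` -/
theorem norm_redM (a : Kb⟮xJ M⟯) (ha : a ≠ 0) :
    ∃ c : Kb, c ≠ 0 ∧ ∃ b : (kA A)⟮xJb A M⟯, b ≠ 0 ∧
      RedM A M (algebraMap Kb (FF M) c⁻¹ * (a : FF M)) (b : FFb A M) := by
  obtain ⟨P, Q, hPQ⟩ := (mem_adjoin_simple_iff Kb (a : FF M)).mp a.2
  have ha' : (a : FF M) ≠ 0 := fun h => ha (Subtype.ext h)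
  have hP0 : aeval (xJ M) P ≠ 0 := by
    intro h
    rw [h, zero_div] at hPQ
    exact ha' hPQ
  have hQ0 : aeval (xJ M) Q ≠ 0 := by
    intro h
    rw [h, div_zero] at hPQ
    exact ha' hPQ
  have hP : P ≠ 0 := by rintro rfl; exact hP0 (map_zero _)
  have hQ : Q ≠ 0 := by rintro rfl; exact hQ0 (map_zero _)
  have htr : Transcendental (IsLocalRing.ResidueField A)
      (coeffMap (IsLocalRing.residue A) (jqModC A)) := by
    rw [coeffMap_jqModC]
    exact transcendental_jqModC' _
  obtain ⟨cP, Pb, hcP, -, hPb0, hRP⟩ := exists_red_aeval (jqModC A) htr P hP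
  obtain ⟨cQ, Qb, hcQ, -, hQb0, hRQ⟩ := exists_red_aeval (jqModC A) htr Q hQ
  rw [← coe_xJ' A M] at hRP hRQ
  rw [← coe_xJb A M] at hRP hRQ hPb0 hQb0
  rw [← coe_aeval_FF, ← coe_aeval_FFb] at hRP hRQ
  rw [← coe_aeval_FFb] at hPb0 hQb0
  have hPb0' : aeval (xJb A M) Pb ≠ 0 := fun h => hPb0 (by rw [h]; rfl)
  have hQb0' : aeval (xJb A M) Qb ≠ 0 := fun h => hQb0 (by rw [h]; rfl)
  have hmemP : aeval (xJb A M) Pb ∈ (kA A)⟮xJb A M⟯ := by
    rw [Polynomial.aeval_eq_sum_range]
    exact sum_mem fun i _ => by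
      rw [Algebra.smul_def]
      exact mul_mem (IntermediateField.algebraMap_mem _ _) (pow_mem (mem_adjoin_simple_self _ _) _)
  have hmemQ : aeval (xJb A M) Qb ∈ (kA A)⟮xJb A M⟯ := by
    rw [Polynomial.aeval_eq_sum_range]
    exact sum_mem fun i _ => by
      rw [Algebra.smul_def]
      exact mul_mem (IntermediateField.algebraMap_mem _ _) (pow_mem (mem_adjoin_simple_self _ _) _)
  refine ⟨cP / cQ, div_ne_zero hcP hcQ,
    ⟨aeval (xJb A M) Pb / aeval (xJb A M) Qb, div_mem hmemP hmemQ⟩, ?_, ?_⟩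
  · intro h
    exact div_ne_zero hPb0' hQb0' (congrArg Subtype.val h)
  · have hdiv := Red.div hRP hRQ hQb0
    have e : ((algebraMap Kb (FF M) (cP / cQ)⁻¹ * (a : FF M) : FF M) : LaurentSeries Kb) =
        (algebraMap Kb (LaurentSeries Kb) cP⁻¹ * ((aeval (xJ M) P : FF M) : LaurentSeries Kb)) /
          (algebraMap Kb (LaurentSeries Kb) cQ⁻¹ *
            ((aeval (xJ M) Q : FF M) : LaurentSeries Kb)) := by
      rw [hPQ]
      have hcQ' : algebraMap Kb (LaurentSeries Kb) cQ ≠ 0 := fun h =>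
        hcQ ((algebraMap Kb (LaurentSeries Kb)).injective (h.trans (map_zero _).symm))
      have hcP' : algebraMap Kb (LaurentSeries Kb) cP ≠ 0 := fun h =>
        hcP ((algebraMap Kb (LaurentSeries Kb)).injective (h.trans (map_zero _).symm))
      have hQ0' : ((aeval (xJ M) Q : FF M) : LaurentSeries Kb) ≠ 0 := fun h =>
        hQ0 (Subtype.ext h)
      have h1 : ((algebraMap Kb (FF M) (cP / cQ)⁻¹ *
          (aeval (xJ M) P / aeval (xJ M) Q) : FF M) : LaurentSeries Kb) =
          algebraMap Kb (LaurentSeries Kb) (cP / cQ)⁻¹ *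
            (((aeval (xJ M) P : FF M) : LaurentSeries Kb) /
              ((aeval (xJ M) Q : FF M) : LaurentSeries Kb)) := rfl
      rw [h1, inv_div, map_div₀, map_inv₀, map_inv₀]
      field_simp
    show Red A _ _
    rw [e]
    exact hdiv

/-- every element of the special fibre field lifts -/
theorem exists_lift_red {x : LaurentSeries (kA A)} (hx : x ∈ FFb A M) :
    ∃ y ∈ FF M, Red A y x := by
  rcases exists_good_lift (A := A) (N := M) hx with rfl | ⟨P, Q, hP, hQ, e⟩
  · exact ⟨0, zero_mem _, red_zero⟩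
  · have hQ0 : coeffMap A.subtype Q ≠ 0 := fun h => toF_ne_zero hQ (Subtype.ext h)
    refine ⟨coeffMap A.subtype P / coeffMap A.subtype Q, div_mem hP.1 hQ.1, ?_⟩
    exact Red.of_quot P Q hQ.2.2 (div_mul_cancel₀ _ hQ0) e

/-- the reduction of an element of `F_N` lies in the special fibre field of level `N` -/
theorem red_mem_of_mem [NeZero N]
    (hgen : PrincipalGeneratedByIntegral A (IsLocalRing.residue A) N)
    {x : LaurentSeries Kb} (hx : x ∈ FF N) {y : LaurentSeries (kA A)} (h : Red A x y)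
    (hy : y ≠ 0) : y ∈ FFb A N := by
  have hx0 : x ≠ 0 := h.ne_zero hy
  have hxN : (⟨x, hx⟩ : FF N) ≠ 0 := fun h0 => hx0 (congrArg Subtype.val h0)
  obtain ⟨Y₁, Y₂, h₁, h₂, e⟩ := exists_good_quotient hgen ⟨x, hx⟩ hxN
  obtain ⟨c, hc⟩ := const_of_ord_eq_zero N ((⟨x, hx⟩ : FF N) * toF h₂ / toF h₁) (fun P => by
    rw [div_eq_mul_inv, P.ord_mul (mul_ne_zero hxN (toF_ne_zero h₂))
      (inv_ne_zero (toF_ne_zero h₁)), P.ord_mul hxN (toF_ne_zero h₂), P.ord_inv, e P]
    ring)
  have hc' : algebraMap Kb (LaurentSeries Kb) c =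
      x * coeffMap A.subtype Y₂ / coeffMap A.subtype Y₁ := congrArg Subtype.val hc
  have hR1 : Red A (coeffMap A.subtype Y₁) (coeffMap (IsLocalRing.residue A) Y₁) :=
    Red.of_series Y₁
  have hR2 : Red A (coeffMap A.subtype Y₂) (coeffMap (IsLocalRing.residue A) Y₂) :=
    Red.of_series Y₂
  have hRc := Red.div (h.mul hR2) hR1 h₁.2.2
  rw [← hc'] at hRc
  obtain ⟨a, -, -, ha⟩ := exists_unit_of_red_const hRc
    (div_ne_zero (mul_ne_zero hy h₂.2.2) h₁.2.2)
  have hy' : y = algebraMap (kA A) (LaurentSeries (kA A)) (IsLocalRing.residue A a) *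
      coeffMap (IsLocalRing.residue A) Y₁ / coeffMap (IsLocalRing.residue A) Y₂ := by
    rw [← ha]
    field_simp [h₁.2.2, h₂.2.2]
  rw [hy']
  exact div_mem (mul_mem ((FFb A N).algebraMap_mem _) h₁.2.1) h₂.2.1

theorem FF_le [NeZero N] [NeZero M] (h : N ∣ M) : FF N ≤ FF M := by
  show laurentBaseChange Kb (modularFunctionFieldFull N) ≤
    laurentBaseChange Kb (modularFunctionFieldFull M)
  rw [laurentBaseChange, IntermediateField.adjoin_le_iff]
  rintro _ ⟨y, hy, rfl⟩
  exact coeffEmb_mem_laurentBaseChange Kb (full_degeneracy_le h hy)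

theorem FFb_le [NeZero N] [NeZero M] (h : N ∣ M) : FFb A N ≤ FFb A M :=
  full_degeneracyC_le (kA A) h

theorem IsGood.of_dvd [NeZero N] [NeZero M] (h : N ∣ M) {Y : LaurentSeries A}
    (hY : IsGood A N Y) : IsGood A M Y :=
  ⟨FF_le h hY.1, FFb_le h hY.2.1, hY.2.2⟩

end Inputs

section Transfer

variable {A : ValuationSubring Kb} {N M : ℕ} [NeZero N] [NeZero M]

/-- the function field of level `N` inside the function field of level `M` -/
def EN (N M : ℕ) : IntermediateField Kb (FF M) := IntermediateField.comap (FF M).val (FF N)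

/-- the special fibre field of level `N` inside the special fibre field of level `M` -/
def EbN (A : ValuationSubring Kb) (N M : ℕ) : IntermediateField (kA A) (FFb A M) :=
  IntermediateField.comap (FFb A M).val (FFb A N)

theorem mem_EN {x : FF M} : x ∈ EN N M ↔ (x : LaurentSeries Kb) ∈ FF N := Iff.rfl

theorem mem_EbN {x : FFb A M} : x ∈ EbN A N M ↔ (x : LaurentSeries (kA A)) ∈ FFb A N := Iff.rfl

theorem adjoin_xJ_le : Kb⟮xJ M⟯ ≤ EN N M := by
  rw [adjoin_simple_le_iff, mem_EN]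
  exact Jd_mem N 1 (one_dvd N)

theorem adjoin_xJb_le : (kA A)⟮xJb A M⟯ ≤ EbN A N M := by
  rw [adjoin_simple_le_iff, mem_EbN]
  exact jqModC_mem_full (kA A) N

/-- the residue characteristic -/
theorem natCast_residue_ne_zero {ℓ : ℕ} [Fact ℓ.Prime] (hA : A.LiesOverPrime ℓ) {m : ℕ}
    (hm : ¬ ℓ ∣ m) : (m : kA A) ≠ 0 := by
  have hℓ : (ℓ : kA A) = 0 := by
    obtain ⟨ha, hmem⟩ := (ValuationSubring.mem_nonunits_iff_exists_mem_maximalIdeal).mp hA
    have e : (⟨(ℓ : Kb), ha⟩ : A) = (ℓ : A) := Subtype.ext (by simp)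
    rw [e] at hmem
    have := (IsLocalRing.residue_eq_zero_iff _).mpr hmem
    rwa [map_natCast] at this
  intro h0
  have hcop : Nat.Coprime m ℓ :=
    ((Nat.Prime.coprime_iff_not_dvd (Fact.out : ℓ.Prime)).mpr hm).symm
  have hb := Int.gcd_eq_gcd_ab m ℓ
  rw [show Int.gcd (m : ℤ) (ℓ : ℤ) = Nat.gcd m ℓ from rfl, hcop.gcd_eq_one] at hb
  have hb' := congrArg (Int.cast : ℤ → kA A) hb
  push_cast at hb'
  rw [h0, hℓ, zero_mul, zero_mul, add_zero] at hb'
  exact one_ne_zero hb'

theorem coe_mem_of_mem_adjoin (a : Kb⟮xJ M⟯) : ((a : FF M) : LaurentSeries Kb) ∈ FF N :=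
  mem_EN.mp (adjoin_xJ_le a.2)

theorem exists_psi : ∃ ψ : Kb⟮xJ M⟯ →+* FF N, ∀ a, ((ψ a : FF N) : LaurentSeries Kb) =
      ((a : FF M) : LaurentSeries Kb) :=
    ⟨((FF M).val.toRingHom.comp (algebraMap Kb⟮xJ M⟯ (FF M))).codRestrict (FF N)
      (fun a => coe_mem_of_mem_adjoin a), fun a => RingHom.codRestrict_apply _ _ _ a⟩

theorem isIntegral_over_adjoin (x : FF M) : IsIntegral Kb⟮xJ M⟯ x :=
  haveI : Module.Finite Kb⟮xJ M⟯ (FF M) := helper77.an_finiteDimensional M
  IsIntegral.of_finite _ x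

theorem comp_psi (h : N ∣ M) (ψ : Kb⟮xJ M⟯ →+* FF N)
    (hψ : ∀ a, ((ψ a : FF N) : LaurentSeries Kb) = ((a : FF M) : LaurentSeries Kb)) :
    (IntermediateField.inclusion (FF_le h)).toRingHom.comp ψ =
      algebraMap Kb⟮xJ M⟯ (FF M) := by
  apply RingHom.ext
  intro a
  apply Subtype.ext
  rw [RingHom.comp_apply]
  exact (IntermediateField.coe_inclusion (FF_le h) (ψ a)).trans (hψ a)

/-- the inclusion of `F_N` in `F_M` is integral -/
theorem inclusion_isIntegral (h : N ∣ M) :
    (IntermediateField.inclusion (FF_le h)).toRingHom.IsIntegral := by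
  intro x
  obtain ⟨p, hpm, hp⟩ := isIntegral_over_adjoin x
  obtain ⟨ψ, hψ⟩ := exists_psi (N := N) (M := M)
  refine ⟨p.map ψ, hpm.map ψ, ?_⟩
  rw [Polynomial.eval₂_map, comp_psi h ψ hψ]
  exact hp

theorem dvd_ord_inclusion (hNM : N ∣ M) (m : ℕ) (f : FF N)
    (hdiv : ∀ P : Place Kb (FF N), (m : ℤ) ∣ P.ord f) (w : Place Kb (FF M)) :
    (m : ℤ) ∣ w.ord (IntermediateField.inclusion (FF_le hNM) f) := by
  rw [Place.ord_restrictAlong (IntermediateField.inclusion (FF_le hNM))
    (inclusion_isIntegral hNM) w f]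
  exact Dvd.dvd.mul_left (hdiv _) _

theorem finiteDimensional_FF (M : ℕ) [NeZero M] : FiniteDimensional Kb⟮xJ M⟯ (FF M) :=
  helper77.an_finiteDimensional M

set_option synthInstance.maxHeartbeats 400000 in
/-- descent step -/
theorem descent_mem (hNM : N ∣ M) {ℓ : ℕ} [Fact ℓ.Prime] (hA : A.LiesOverPrime ℓ)
    (m : ℕ) (hm : ¬ ℓ ∣ m)
    (hgen : PrincipalGeneratedByIntegral A (IsLocalRing.residue A) N)
    (hdeg : Module.finrank Kb⟮xJ M⟯ (FF M) ≤ Module.finrank (kA A)⟮xJb A M⟯ (FFb A M))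
    (f : FF M) (hfE : f ∈ EN N M) (hf1 : RedM A M f 1) (c : Kb) (u : FF M)
    (hcu : f = algebraMap Kb (FF M) c * u ^ m) : u ∈ EN N M := by
  have := isAlgClosed_residueField A
  have := finiteDimensional_FF M
  refine kummer_descent (isRed_redM A M) Kb⟮xJ M⟯ (EN N M) adjoin_xJ_le
      (kA A)⟮xJb A M⟯ (EbN A N M) adjoin_xJb_le (fun a ha => norm_redM a ha)
      (fun y => ?_) (fun y hy => ?_) (fun x hx y hR hy => ?_) hdeg m
      (natCast_residue_ne_zero hA hm) f hfE hf1 c u hcu
  · obtain ⟨x, hx, hR⟩ := exists_lift_red (A := A) (M := M) y.2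
    exact ⟨⟨x, hx⟩, hR⟩
  · obtain ⟨x, hx, hR⟩ := exists_lift_red (A := A) (M := N) (mem_EbN.mp hy)
    exact ⟨⟨x, FF_le hNM hx⟩, hx, hR⟩
  · exact mem_EbN.mpr (red_mem_of_mem hgen (mem_EN.mp hx) hR
        (fun h0 => hy (Subtype.ext h0)))

theorem redM_one_of (hNM : N ∣ M) (f : FF N) (Y₁ Y₂ : LaurentSeries A)
    (h0 : coeffMap (IsLocalRing.residue A) Y₂ ≠ 0)
    (e : coeffMap A.subtype Y₁ = (f : LaurentSeries Kb) * coeffMap A.subtype Y₂)
    (ered : coeffMap (IsLocalRing.residue A) Y₁ = coeffMap (IsLocalRing.residue A) Y₂) :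
    RedM A M (IntermediateField.inclusion (FF_le hNM) f) 1 := by
  unfold RedM
  rw [IntermediateField.coe_inclusion (FF_le hNM) f, IntermediateField.coe_one]
  exact Red.of_quot Y₁ Y₂ h0 e.symm (by rw [ered, one_mul])

set_option synthInstance.maxHeartbeats 400000 in
/-- **transfer of the injectivity statement from level `M` to level `N ∣ M`** -/
theorem inj_transfer (hNM : N ∣ M) {ℓ : ℕ} [Fact ℓ.Prime] (hA : A.LiesOverPrime ℓ)
    (m : ℕ) (hm : ¬ ℓ ∣ m)
    (hgen : PrincipalGeneratedByIntegral A (IsLocalRing.residue A) N)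
    (hdeg : Module.finrank Kb⟮xJ M⟯ (FF M) ≤ Module.finrank (kA A)⟮xJb A M⟯ (FFb A M))
    (hinj : InjStatement M A m) : InjStatement N A m := by
  intro f hf hdiv ⟨Y₁, Y₂, h₁, h₂, e, ered⟩
  have hf' : IntermediateField.inclusion (FF_le hNM) f ≠ 0 := fun h0 =>
    hf ((IntermediateField.inclusion_injective (FF_le hNM)) (h0.trans (map_zero _).symm))
  have ecoe : ((IntermediateField.inclusion (FF_le hNM) f : FF M) : LaurentSeries Kb) =
      (f : LaurentSeries Kb) := IntermediateField.coe_inclusion (FF_le hNM) f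
  obtain ⟨c, u, hcu⟩ := hinj (IntermediateField.inclusion (FF_le hNM) f) hf'
    (dvd_ord_inclusion hNM m f hdiv)
    ⟨Y₁, Y₂, h₁.of_dvd hNM, h₂.of_dvd hNM, by rw [ecoe]; exact e, ered⟩
  have hfE : IntermediateField.inclusion (FF_le hNM) f ∈ EN N M := by
    rw [mem_EN, ecoe]
    exact f.2
  have hf1 : RedM A M (IntermediateField.inclusion (FF_le hNM) f) 1 :=
    redM_one_of hNM f Y₁ Y₂ h₂.2.2 e ered
  have huE := descent_mem hNM hA m hm hgen hdeg _ hfE hf1 c u hcu
  refine ⟨c, ⟨(u : LaurentSeries Kb), mem_EN.mp huE⟩, ?_⟩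
  apply Subtype.ext
  rw [IntermediateField.coe_mul, IntermediateField.coe_pow,
    IntermediateField.coe_algebraMap_apply, ← ecoe, hcu, IntermediateField.coe_mul,
    IntermediateField.coe_pow, IntermediateField.coe_algebraMap_apply]

end Transfer

end Fermat.Agent.S18.helper19
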